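import Fermat.Agent.S55.LocalQ.Val
import Fermat.Agent.S55.Local.Basic

/-!
# S55 / local block: the concrete fields satisfy the abstract local setting `lf_IsLocal`

* `lq_isLocal` : for `K : LqField q` finite over `ℚ_[q]` and any tower `ℚ_[q] → E → K`,
  `lf_IsLocal E K (lq_val K)`.
* `lq_valOf F` : the normalised valuation of an ABSTRACT finite extension `F` of `ℚ_[q]`
  (any field `F : Type` with `[Algebra ℚ_[q] F] [FiniteDimensional ℚ_[q] F]`), independent of the
  chosen embedding into `PadicAlgCl q`, with `lq_isLocalOf : lf_IsLocal E F (lq_valOf F)`.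
-/

set_option autoImplicit false

open scoped Valued NormedField NNReal
open WithZero

namespace Fermat.Agent.S55

variable {q : ℕ} [Fact q.Prime]

noncomputable section

theorem lq_isLocal (K : LqField q) [FiniteDimensional ℚ_[q] K] (E : Type) [Field E]
    [Algebra ℚ_[q] E] [Algebra E K] [IsScalarTower ℚ_[q] E K] :
    lf_IsLocal E K (lq_val K) where
  inv σ x := lq_val_aut K σ x
  unif := lq_val_exists_unif K
  complete := lq_val_complete K
  finite_res := lq_val_finite_res K

/-! ### Isomorphic local fields have the same normalised valuation -/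

theorem lq_ordZ_pos_iff (K : LqField q) [FiniteDimensional ℚ_[q] K] {x : K} (hx : x ≠ 0) :
    0 < lq_ordZ K x ↔ ‖x‖ < 1 := by
  rw [lq_ordZ_spec K hx]
  exact (zpow_lt_one_iff_right_of_lt_one₀ (lq_norm_unif_pos K) (lq_norm_unif_lt_one K)).symm

theorem lq_norm_unif_eq_of_algEquiv {K K' : LqField q} [FiniteDimensional ℚ_[q] K]
    [FiniteDimensional ℚ_[q] K'] (φ : K ≃ₐ[ℚ_[q]] K') :
    ‖(lq_unif K' : K')‖ = ‖(lq_unif K : K)‖ := by
  -- `‖π'‖ = ‖π‖ ^ a` and `‖π‖ = ‖π'‖ ^ b` with `a, b ≥ 1`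
  have h1 : φ.symm (lq_unif K' : K') ≠ 0 := (map_ne_zero φ.symm).mpr (lq_unif_ne_zero K')
  have h2 : φ (lq_unif K : K) ≠ 0 := (map_ne_zero φ).mpr (lq_unif_ne_zero K)
  have ha := lq_ordZ_spec K h1
  have hb := lq_ordZ_spec K' h2
  rw [lq_norm_algEquiv] at ha hb
  have ha0 : 0 < lq_ordZ K (φ.symm (lq_unif K' : K')) := by
    rw [lq_ordZ_pos_iff K h1, lq_norm_algEquiv]
    exact lq_norm_unif_lt_one K'
  have hb0 : 0 < lq_ordZ K' (φ (lq_unif K : K)) := by
    rw [lq_ordZ_pos_iff K' h2, lq_norm_algEquiv]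
    exact lq_norm_unif_lt_one K
  set a := lq_ordZ K (φ.symm (lq_unif K' : K')) with ha_def
  set b := lq_ordZ K' (φ (lq_unif K : K)) with hb_def
  have hab : ‖(lq_unif K : K)‖ ^ (1 : ℤ) = ‖(lq_unif K : K)‖ ^ (a * b) := by
    rw [zpow_one, zpow_mul, ← ha]
    exact hb
  have hab1 : (1 : ℤ) = a * b := lq_zpow_injective K hab
  have ha1 : a = 1 := by nlinarith
  rw [ha, ha1, zpow_one]

theorem lq_ordZ_algEquiv {K K' : LqField q} [FiniteDimensional ℚ_[q] K]
    [FiniteDimensional ℚ_[q] K'] (φ : K ≃ₐ[ℚ_[q]] K') (x : K) :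
    lq_ordZ K' (φ x) = lq_ordZ K x := by
  by_cases hx : x = 0
  · simp [hx, lq_ordZ]
  · apply lq_ordZ_eq_of_norm_eq K' ((map_ne_zero φ).mpr hx)
    rw [lq_norm_algEquiv, lq_norm_unif_eq_of_algEquiv φ]
    exact lq_ordZ_spec K hx

theorem lq_val_algEquiv {K K' : LqField q} [FiniteDimensional ℚ_[q] K]
    [FiniteDimensional ℚ_[q] K'] (φ : K ≃ₐ[ℚ_[q]] K') (x : K) :
    lq_val K' (φ x) = lq_val K x := by
  by_cases hx : x = 0
  · simp [hx]
  · rw [lq_val_apply_of_ne K' ((map_ne_zero φ).mpr hx), lq_val_apply_of_ne K hx,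
      lq_ordZ_algEquiv]

/-! ### Abstract finite extensions of `ℚ_[q]` -/

variable (F : Type) [Field F] [Algebra ℚ_[q] F] [FiniteDimensional ℚ_[q] F]

/-- A chosen embedding of `F` into `PadicAlgCl q`. -/
def lq_emb : F →ₐ[ℚ_[q]] PadicAlgCl q := IsAlgClosed.lift

/-- The image of `F` in `PadicAlgCl q`. -/
def lq_image : LqField q := (lq_emb (q := q) F).fieldRange

/-- `F` is isomorphic to its image. -/
def lq_toImage : F ≃ₐ[ℚ_[q]] lq_image (q := q) F := AlgEquiv.ofInjectiveField (lq_emb F)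

instance lq_image_finite : FiniteDimensional ℚ_[q] (lq_image (q := q) F) :=
  (lq_toImage (q := q) F).toLinearEquiv.finiteDimensional

/-- The normalised valuation of an abstract finite extension of `ℚ_[q]`. -/
def lq_valOf : Valuation F ℤᵐ⁰ := (lq_val (lq_image (q := q) F)).comap (lq_toImage F).toRingEquiv.toRingHom

theorem lq_valOf_apply (x : F) :
    lq_valOf (q := q) F x = lq_val (lq_image (q := q) F) (lq_toImage F x) := rfl

variable {F}

/-- The valuation does not depend on the embedding: `ℚ_[q]`-isomorphisms preserve it. -/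
theorem lq_valOf_algEquiv {F' : Type} [Field F'] [Algebra ℚ_[q] F'] [FiniteDimensional ℚ_[q] F']
    (e : F ≃ₐ[ℚ_[q]] F') (x : F) : lq_valOf (q := q) F' (e x) = lq_valOf (q := q) F x := by
  rw [lq_valOf_apply, lq_valOf_apply]
  let φ : lq_image (q := q) F ≃ₐ[ℚ_[q]] lq_image (q := q) F' :=
    ((lq_toImage F).symm.trans e).trans (lq_toImage F')
  have hφ : lq_toImage (q := q) F' (e x) = φ (lq_toImage F x) := by
    simp [φ]
  rw [hφ]
  exact lq_val_algEquiv φ _

theorem lq_valOf_eq_lq_val (K : LqField q) [FiniteDimensional ℚ_[q] K] (x : K) :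
    lq_valOf (q := q) K x = lq_val K x := by
  rw [lq_valOf_apply]
  exact lq_val_algEquiv (lq_toImage (q := q) K) x

variable (F)

theorem lq_valOf_symm (y : lq_image (q := q) F) :
    lq_valOf (q := q) F ((lq_toImage F).symm y) = lq_val (lq_image (q := q) F) y := by
  rw [lq_valOf_apply, AlgEquiv.apply_symm_apply]

/-- Abstract finite extensions of `ℚ_[q]` satisfy the abstract local setting, over any
intermediate base `E`. -/
theorem lq_isLocalOf (E : Type) [Field E] [Algebra ℚ_[q] E] [Algebra E F]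
    [IsScalarTower ℚ_[q] E F] : lf_IsLocal E F (lq_valOf (q := q) F) where
  inv σ x := lq_valOf_algEquiv (σ.restrictScalars ℚ_[q]) x
  unif := ⟨(lq_toImage F).symm (lq_unif (lq_image (q := q) F) : lq_image (q := q) F), by
    rw [lq_valOf_symm, lq_val_unif]⟩
  complete a ha := by
    obtain ⟨y, hy⟩ := lq_val_complete (lq_image (q := q) F) (fun i => lq_toImage F (a i)) (by
      intro i
      have := ha i
      rw [lq_valOf_apply, map_sub] at this
      exact this)
    refine ⟨(lq_toImage F).symm y, fun i => ?_⟩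
    have := hy i
    rw [lq_valOf_apply, map_sub, AlgEquiv.apply_symm_apply]
    exact this
  finite_res := by
    classical
    obtain ⟨S, hS⟩ := lq_val_finite_res (lq_image (q := q) F)
    refine ⟨S.image (lq_toImage F).symm, fun x hx => ?_⟩
    obtain ⟨s, hs, hlt⟩ := hS (lq_toImage F x) hx
    refine ⟨(lq_toImage F).symm s, Finset.mem_image_of_mem _ hs, ?_⟩
    rw [lq_valOf_apply, map_sub, AlgEquiv.apply_symm_apply]
    exact hlt

end

end Fermat.Agent.S55
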