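import Fermat.Agent.S55.LocalQ.Defs

/-!
# S55 / local block, concrete side (LQ6): enough unramified extensions

For `L : LqField q` finite Galois over `ℚ_[q]` and `m ≥ 1` we construct `L' = L(ζ)`, `ζ` a
primitive `(q ^ m - 1)`-th root of unity in `PadicAlgCl q`, and show that `q ^ m - 1` divides
`lq_resCard L' - 1` (reduction is injective on roots of unity of order prime to `q`).  Together
with `lq_resCard L' = q ^ (lq_inertia L').index` (helper24's (LQ1), taken as a hypothesis in this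
file) this gives `m ∣ (lq_inertia L').index`.
-/

set_option autoImplicit false

open scoped Valued NormedField NNReal

namespace Fermat.Agent.S55

variable {q : ℕ} [Fact q.Prime]

noncomputable section

/-! ### Norms of integers and of roots of unity -/

theorem lqu_norm_algebraMap (K : LqField q) (x : ℚ_[q]) : ‖algebraMap ℚ_[q] K x‖ = ‖x‖ := by
  rw [← lq_norm_coe]
  exact PadicAlgCl.norm_extends q x

theorem lqu_norm_natCast (K : LqField q) (n : ℕ) : ‖(n : K)‖ = ‖(n : ℚ_[q])‖ := by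
  rw [← lqu_norm_algebraMap K (n : ℚ_[q]), map_natCast]

theorem lqu_norm_natCast_le_one (K : LqField q) (n : ℕ) : ‖(n : K)‖ ≤ 1 := by
  rw [lqu_norm_natCast]
  simpa using Padic.norm_int_le_one (p := q) (n : ℤ)

theorem lqu_norm_prime_lt_one (K : LqField q) : ‖(q : K)‖ < 1 := by
  rw [lqu_norm_natCast]
  exact Padic.norm_p_lt_one

/-- `q ^ m - 1` is a unit of the ring of integers. -/
theorem lqu_norm_pow_sub_one (K : LqField q) {m : ℕ} (hm : 0 < m) :
    ‖((q ^ m - 1 : ℕ) : K)‖ = 1 := by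
  have h1 : 1 ≤ q ^ m := Nat.one_le_pow _ _ (Fact.out : q.Prime).pos
  rw [Nat.cast_sub h1, Nat.cast_pow, Nat.cast_one]
  have hlt : ‖((q : K)) ^ m‖ < 1 := by
    rw [norm_pow]
    exact pow_lt_one₀ (norm_nonneg _) (lqu_norm_prime_lt_one K) hm.ne'
  have hne : ‖((q : K)) ^ m‖ ≠ ‖(-1 : K)‖ := by
    rw [norm_neg, norm_one]
    exact hlt.ne
  rw [sub_eq_add_neg, IsUltrametricDist.norm_add_eq_max_of_norm_ne_norm hne, norm_neg, norm_one]
  exact max_eq_right hlt.le

theorem lqu_norm_eq_one_of_pow_eq_one (K : LqField q) {x : K} {n : ℕ} (hn : 0 < n)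
    (hx : x ^ n = 1) : ‖x‖ = 1 := by
  have h := congrArg norm hx
  rw [norm_pow, norm_one] at h
  exact (pow_eq_one_iff_of_nonneg (norm_nonneg x) hn.ne').mp h

/-- Reduction is injective on roots of unity of order prime to the residue characteristic:
a root of unity of order dividing `n`, `‖n‖ = 1`, which is congruent to `1` is equal to `1`. -/
theorem lqu_eq_one_of_pow_eq_one_of_norm_sub_lt (K : LqField q) {x : K} {n : ℕ}
    (hn : ‖(n : K)‖ = 1) (hx : x ^ n = 1) (h1 : ‖x - 1‖ < 1) : x = 1 := by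
  by_contra hne
  have hsum : ∑ i ∈ Finset.range n, x ^ i = 0 := by
    have h := geom_sum_mul x n
    rw [hx, sub_self] at h
    rcases mul_eq_zero.mp h with h | h
    · exact h
    · exact absurd (sub_eq_zero.mp h) hne
  have hx1 : ‖x‖ ≤ 1 := by
    have : x = (x - 1) + 1 := by ring
    rw [this]
    exact (IsUltrametricDist.norm_add_le_max _ _).trans (max_le h1.le (by simp))
  -- each `x ^ i - 1` has norm `≤ ‖x - 1‖`
  have hi : ∀ i ∈ Finset.range n, ‖x ^ i - 1‖ ≤ ‖x - 1‖ := by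
    intro i _
    have h := geom_sum_mul x i
    rw [← h, norm_mul]
    have hle : ‖∑ j ∈ Finset.range i, x ^ j‖ ≤ 1 := by
      refine IsUltrametricDist.norm_sum_le_of_forall_le_of_nonneg zero_le_one fun j _ => ?_
      rw [norm_pow]
      exact pow_le_one₀ (norm_nonneg _) hx1
    exact mul_le_of_le_one_left (norm_nonneg _) hle
  have hn' : (n : K) = -∑ i ∈ Finset.range n, (x ^ i - 1) := by
    rw [Finset.sum_sub_distrib, hsum]
    simp
  have : ‖(n : K)‖ ≤ ‖x - 1‖ := by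
    rw [hn', norm_neg]
    exact IsUltrametricDist.norm_sum_le_of_forall_le_of_nonneg (norm_nonneg _) hi
  rw [hn] at this
  exact absurd h1 (not_lt.mpr this)

/-! ### The order of the reduction of a primitive root of unity -/

section residue

variable (K : LqField q) [FiniteDimensional ℚ_[q] K]

/-- If `K` contains a primitive `n`-th root of unity with `‖n‖ = 1` then `n` divides the order
of the multiplicative group of the residue field. -/
theorem lqu_dvd_resCard_sub_one {n : ℕ} (hn0 : 0 < n) (hn : ‖(n : K)‖ = 1) {ζ : K}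
    (hζ : IsPrimitiveRoot ζ n) : n ∣ lq_resCard K - 1 := by
  have hζ1 : ‖ζ‖ = 1 := lqu_norm_eq_one_of_pow_eq_one K hn0 hζ.pow_eq_one
  have hζi : ‖ζ⁻¹‖ = 1 := by rw [norm_inv, hζ1, inv_one]
  -- `ζ` as a unit of the ring of integers
  let z : 𝒪[K] := ⟨ζ, (lq_mem_integer_iff K ζ).mpr hζ1.le⟩
  let z' : 𝒪[K] := ⟨ζ⁻¹, (lq_mem_integer_iff K ζ⁻¹).mpr hζi.le⟩
  have hzz' : z * z' = 1 := by
    ext
    simp [z, z', mul_inv_cancel₀ (hζ.ne_zero hn0.ne')]
  let u : 𝒪[K]ˣ := ⟨z, z', hzz', by rw [mul_comm]; exact hzz'⟩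
  let r : 𝒪[K] →+* 𝓀[K] := IsLocalRing.residue 𝒪[K]
  let ū : (𝓀[K])ˣ := Units.map (r : 𝒪[K] →* 𝓀[K]) u
  have hord : orderOf ū = n := by
    refine Nat.dvd_antisymm ?_ ?_
    · refine orderOf_dvd_of_pow_eq_one ?_
      rw [← map_pow]
      have : u ^ n = 1 := by
        ext
        simp [u, z, hζ.pow_eq_one]
      rw [this, map_one]
    · have hpow : ū ^ orderOf ū = 1 := pow_orderOf_eq_one ū
      have h1 : r (z ^ orderOf ū - 1) = 0 := by
        have := congrArg (fun w : (𝓀[K])ˣ => (w : 𝓀[K])) hpow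
        simp only [Units.val_pow_eq_pow_val, Units.val_one] at this
        rw [map_sub, map_pow, map_one]
        exact sub_eq_zero.mpr this
      have h2 : z ^ orderOf ū - 1 ∈ IsLocalRing.maximalIdeal 𝒪[K] :=
        (IsLocalRing.residue_eq_zero_iff _).mp h1
      rw [lq_mem_maximalIdeal_iff] at h2
      have h3 : ζ ^ orderOf ū = 1 := by
        refine lqu_eq_one_of_pow_eq_one_of_norm_sub_lt K hn ?_ (by simpa [z] using h2)
        rw [← pow_mul, mul_comm, pow_mul, hζ.pow_eq_one, one_pow]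
      exact (hζ.pow_eq_one_iff_dvd _).mp h3
  have hcard : Nat.card (𝓀[K])ˣ = lq_resCard K - 1 := Nat.card_units _
  rw [← hcard, ← hord]
  exact orderOf_dvd_natCard ū

end residue

/-! ### Adjoining roots of unity of order `q ^ m - 1` -/

theorem lqu_exists_primitiveRoot (n : ℕ) (hn : 0 < n) :
    ∃ ζ : PadicAlgCl q, IsPrimitiveRoot ζ n := by
  have : NeZero ((n : ℕ) : PadicAlgCl q) := ⟨by exact_mod_cast hn.ne'⟩
  exact HasEnoughRootsOfUnity.exists_primitiveRoot (PadicAlgCl q) n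

/-- Elementary arithmetic: `a ^ m - 1 ∣ a ^ f - 1` forces `m ∣ f` (for `2 ≤ a`). -/
theorem lqu_dvd_of_pow_sub_one_dvd {a m f : ℕ} (ha : 2 ≤ a) (h : a ^ m - 1 ∣ a ^ f - 1) :
    m ∣ f := by
  have hg := Nat.pow_sub_one_gcd_pow_sub_one a m f
  rw [Nat.gcd_eq_left h] at hg
  have h1 : 1 ≤ a ^ m := Nat.one_le_pow _ _ (by lia)
  have h2 : 1 ≤ a ^ (m.gcd f) := Nat.one_le_pow _ _ (by lia)
  have h3 : a ^ m = a ^ (m.gcd f) := by lia
  have h4 : m = m.gcd f := Nat.pow_right_injective ha h3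
  rw [h4]
  exact Nat.gcd_dvd_right m f

/-- (LQ6), unconditional core: every finite Galois `L / ℚ_[q]` has a finite Galois extension
`L'` inside `PadicAlgCl q` whose residue field has `q ^ m - 1 ∣ |𝓀[L']| - 1`. -/
theorem lqu_exists_ext_resCard (L : LqField q) [FiniteDimensional ℚ_[q] L] [IsGalois ℚ_[q] L]
    (m : ℕ) (hm : 0 < m) :
    ∃ L' : LqField q, L ≤ L' ∧ FiniteDimensional ℚ_[q] L' ∧ IsGalois ℚ_[q] L' ∧
      q ^ m - 1 ∣ lq_resCard L' - 1 := by
  have hq2 : 2 ≤ q := (Fact.out : q.Prime).two_le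
  have hn0 : 0 < q ^ m - 1 := by
    have : 2 ^ m ≤ q ^ m := Nat.pow_le_pow_left hq2 m
    have : 2 ≤ 2 ^ m := by
      calc 2 = 2 ^ 1 := by norm_num
        _ ≤ 2 ^ m := Nat.pow_le_pow_right (by norm_num) hm
    lia
  obtain ⟨ζ, hζ⟩ := lqu_exists_primitiveRoot (q := q) (q ^ m - 1) hn0
  have : NeZero (q ^ m - 1) := ⟨hn0.ne'⟩
  have hcyc : IsCyclotomicExtension {q ^ m - 1} ℚ_[q] (IntermediateField.adjoin ℚ_[q] {ζ}) :=
    hζ.intermediateField_adjoin_isCyclotomicExtension ℚ_[q]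
  have hgal : IsGalois ℚ_[q] (IntermediateField.adjoin ℚ_[q] {ζ}) := IsCyclotomicExtension.isGalois {q ^ m - 1} ℚ_[q] _
  have hfin : FiniteDimensional ℚ_[q] (IntermediateField.adjoin ℚ_[q] {ζ}) :=
    IsCyclotomicExtension.finiteDimensional {q ^ m - 1} ℚ_[q] _
  let L' : LqField q := L ⊔ (IntermediateField.adjoin ℚ_[q] {ζ})
  have hfin' : FiniteDimensional ℚ_[q] L' := IntermediateField.finiteDimensional_sup L (IntermediateField.adjoin ℚ_[q] {ζ})
  have hgal' : IsGalois ℚ_[q] L' := inferInstanceAs (IsGalois ℚ_[q] ↑(L ⊔ IntermediateField.adjoin ℚ_[q] {ζ}))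
  refine ⟨L', le_sup_left, hfin', hgal', ?_⟩
  have hmem : ζ ∈ L' :=
    (le_sup_right : (IntermediateField.adjoin ℚ_[q] {ζ}) ≤ L') (IntermediateField.mem_adjoin_simple_self ℚ_[q] ζ)
  have hζ' : IsPrimitiveRoot (⟨ζ, hmem⟩ : L') (q ^ m - 1) :=
    IsPrimitiveRoot.of_map_of_injective (f := algebraMap L' (PadicAlgCl q)) hζ
      (algebraMap L' (PadicAlgCl q)).injective
  exact lqu_dvd_resCard_sub_one L' hn0 (lqu_norm_pow_sub_one L' hm) hζ'

/-- (LQ6): enough unramified extensions.  `hLQ1` is helper24's (LQ1) for `H = ⊤`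
(`|𝓀[L']| = q ^ f`, `f` the index of the inertia subgroup), taken as a hypothesis here. -/
theorem lqu_exists_unram_ext_of_resCard
    (hLQ1 : ∀ (L' : LqField q) [FiniteDimensional ℚ_[q] L'] [IsGalois ℚ_[q] L'],
      lq_resCard L' = q ^ (lq_inertia L').index)
    (L : LqField q) [FiniteDimensional ℚ_[q] L] [IsGalois ℚ_[q] L] (m : ℕ) (hm : 0 < m) :
    ∃ L' : LqField q, L ≤ L' ∧ FiniteDimensional ℚ_[q] L' ∧ IsGalois ℚ_[q] L' ∧
      m ∣ (lq_inertia L').index := by
  obtain ⟨L', hle, hfin, hgal, hdvd⟩ := lqu_exists_ext_resCard L m hm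
  refine ⟨L', hle, hfin, hgal, ?_⟩
  rw [hLQ1 L'] at hdvd
  exact lqu_dvd_of_pow_sub_one_dvd (Fact.out : q.Prime).two_le hdvd

/-! ### The base field: `lq_fixed ⊤ = ⊥` and `|𝓀[⊥]| = q` -/

theorem lqu_fixed_top (L : LqField q) [FiniteDimensional ℚ_[q] L] [IsGalois ℚ_[q] L] :
    lq_fixed (⊤ : Subgroup (L ≃ₐ[ℚ_[q]] L)) = ⊥ := by
  rw [lq_fixed, IsGalois.fixedField_top, IntermediateField.lift_bot]

/-- The ring isomorphism `ℤ_[q] ≃+* 𝒪[⊥]`. -/
def lqu_botIntEquiv : ℤ_[q] ≃+* 𝒪[(⊥ : LqField q)] :=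
  RingEquiv.ofBijective
    ({ toFun := fun x => ⟨algebraMap ℚ_[q] (⊥ : LqField q) (x : ℚ_[q]),
          (lq_mem_integer_iff _ _).mpr (by rw [lqu_norm_algebraMap]; exact x.2)⟩
       map_one' := by ext; simp
       map_mul' := fun x y => by ext; simp
       map_zero' := by ext; simp
       map_add' := fun x y => by ext; simp } : ℤ_[q] →+* 𝒪[(⊥ : LqField q)])
    (by
      constructor
      · intro x y hxy
        have h := congrArg (fun z : 𝒪[(⊥ : LqField q)] => (z : (⊥ : LqField q))) hxy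
        exact Subtype.ext ((algebraMap ℚ_[q] (⊥ : LqField q)).injective h)
      · intro y
        obtain ⟨x, hx⟩ := (IntermediateField.botEquiv ℚ_[q] (PadicAlgCl q)).symm.surjective
          (y : (⊥ : LqField q))
        have hx' : algebraMap ℚ_[q] (⊥ : LqField q) x = (y : (⊥ : LqField q)) := by
          rw [← hx]
          exact ((IntermediateField.botEquiv ℚ_[q] (PadicAlgCl q)).symm.commutes x).symm
        have hnorm : ‖x‖ ≤ 1 := by
          rw [← lqu_norm_algebraMap (⊥ : LqField q) x, hx']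
          exact (lq_mem_integer_iff _ _).mp y.2
        exact ⟨⟨x, hnorm⟩, Subtype.ext hx'⟩)

theorem lqu_resCard_bot : lq_resCard (⊥ : LqField q) = q := by
  have e : 𝓀[(⊥ : LqField q)] ≃+* ZMod q :=
    (IsLocalRing.ResidueField.mapEquiv (lqu_botIntEquiv (q := q))).symm.trans
      PadicInt.residueField
  rw [lq_resCard, Nat.card_congr e.toEquiv, Nat.card_zmod]

/-- (LQ6) from helper24's (LQ1) in its announced shape. -/
theorem lqu_exists_unram_ext_of_LQ1
    (hLQ1 : ∀ (L' : LqField q) [FiniteDimensional ℚ_[q] L']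
      (H : Subgroup (L' ≃ₐ[ℚ_[q]] L')),
      lq_resCard (lq_fixed H) ^ (lq_inertia L').relIndex H = lq_resCard L')
    (L : LqField q) [FiniteDimensional ℚ_[q] L] [IsGalois ℚ_[q] L] (m : ℕ) (hm : 0 < m) :
    ∃ L' : LqField q, L ≤ L' ∧ FiniteDimensional ℚ_[q] L' ∧ IsGalois ℚ_[q] L' ∧
      m ∣ (lq_inertia L').index := by
  refine lqu_exists_unram_ext_of_resCard (fun L' _ _ => ?_) L m hm
  have h := hLQ1 L' ⊤
  rw [lqu_fixed_top, lqu_resCard_bot, Subgroup.relIndex_top_right] at h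
  exact h.symm

end

end Fermat.Agent.S55
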