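import Fermat.Agent.S55.LocalQ.Ramification
import Fermat.Agent.S55.LocalQ.UnramExt

/-!
# S55 / local block, concrete side: (LQ4) and the unconditional forms of (LQ5), (LQ6)
-/

set_option autoImplicit false

open scoped Valued NormedField NNReal

namespace Fermat.Agent.S55

variable {q : ℕ} [Fact q.Prime]

noncomputable section

section LQ4

variable {L : LqField q} [FiniteDimensional ℚ_[q] L]

theorem lq_map_maximalIdeal_aut (σ : L ≃ₐ[ℚ_[q]] L) :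
    IsLocalRing.maximalIdeal 𝒪[L] = Ideal.map
      ((MulSemiringAction.toRingEquiv (L ≃ₐ[ℚ_[q]] L) 𝒪[L] σ : 𝒪[L] ≃+* 𝒪[L]) : 𝒪[L] →+* 𝒪[L])
      (IsLocalRing.maximalIdeal 𝒪[L]) := by
  ext x
  rw [Ideal.map_comap_of_equiv, Ideal.mem_comap, lq_mem_maximalIdeal_iff, lq_mem_maximalIdeal_iff]
  change ‖(x : L)‖ < 1 ↔ ‖((σ⁻¹ • x : 𝒪[L]) : L)‖ < 1
  rw [lq_smul_coe, lq_norm_algEquiv]

/-- The automorphism of the residue ring of `L` induced by `σ`. -/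
def lq_resAut (σ : L ≃ₐ[ℚ_[q]] L) :
    (𝒪[L] ⧸ IsLocalRing.maximalIdeal 𝒪[L]) ≃+* (𝒪[L] ⧸ IsLocalRing.maximalIdeal 𝒪[L]) :=
  Ideal.quotientEquiv _ _ (MulSemiringAction.toRingEquiv (L ≃ₐ[ℚ_[q]] L) 𝒪[L] σ)
    (lq_map_maximalIdeal_aut σ)

theorem lq_resAut_mk (σ : L ≃ₐ[ℚ_[q]] L) (b : 𝒪[L]) :
    lq_resAut σ (Ideal.Quotient.mk _ b) = Ideal.Quotient.mk _ (σ • b) := rfl

/-- **(LQ4)** Unramified criterion: if `I ∩ H ≤ N ≤ H` and `h ∈ H` acts trivially on the residue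
field of the fixed field of `N`, then `h ∈ N`. -/
theorem lq_mem_of_trivial_on_residue (N H : Subgroup (L ≃ₐ[ℚ_[q]] L)) (hNH : N ≤ H)
    (hI : lq_inertia L ⊓ H ≤ N) (h : L ≃ₐ[ℚ_[q]] L) (hh : h ∈ H)
    (ht : ∀ x : L, (∀ σ ∈ N, σ x = x) → ‖x‖ ≤ 1 → ‖h x - x‖ < 1) : h ∈ N := by
  -- the automorphism of the residue field induced by `h` is linear over the residue field of `L^N`
  let F : (𝒪[L] ⧸ IsLocalRing.maximalIdeal 𝒪[L]) ≃ₐ[𝒪[lq_fixed N] ⧸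
      IsLocalRing.maximalIdeal 𝒪[lq_fixed N]] (𝒪[L] ⧸ IsLocalRing.maximalIdeal 𝒪[L]) :=
    AlgEquiv.ofRingEquiv (f := lq_resAut h) (by
      intro r
      obtain ⟨a, rfl⟩ := Ideal.Quotient.mk_surjective r
      rw [Ideal.Quotient.algebraMap_mk_of_liesOver, lq_resAut_mk,
        lq_sub_mem_maximalIdeal_iff_norm]
      refine ht _ ?_ ?_
      · intro σ hσ
        exact congrArg (fun z : 𝒪[L] => (z : L)) (lq_smul_algebraMap_fixed N ⟨σ, hσ⟩ a)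
      · exact (lq_mem_integer_iff L _).mp (algebraMap 𝒪[lq_fixed N] 𝒪[L] a).2)
  obtain ⟨n, hn⟩ := lq_redHom_surjective N F
  have hn' : ∀ b : 𝒪[L], Ideal.Quotient.mk (IsLocalRing.maximalIdeal 𝒪[L]) (n • b) =
      Ideal.Quotient.mk (IsLocalRing.maximalIdeal 𝒪[L]) (h • b) := by
    intro b
    have := congrArg (fun f => f (Ideal.Quotient.mk _ b)) hn
    exact this
  have hin : (n : L ≃ₐ[ℚ_[q]] L)⁻¹ * h ∈ lq_inertia L := by
    rw [lq_mem_inertia_iff]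
    intro x hx
    have hx' : x ∈ 𝒪[L] := (lq_mem_integer_iff L x).mpr hx
    have h3 := hn' ⟨x, hx'⟩
    rw [lq_sub_mem_maximalIdeal_iff_norm] at h3
    have h4 : ((n : L ≃ₐ[ℚ_[q]] L)⁻¹ * h) x - x =
        (n : L ≃ₐ[ℚ_[q]] L)⁻¹ (h x - (n : L ≃ₐ[ℚ_[q]] L) x) := by
      rw [map_sub]
      have : (n : L ≃ₐ[ℚ_[q]] L)⁻¹ ((n : L ≃ₐ[ℚ_[q]] L) x) = x := by
        change ((n : L ≃ₐ[ℚ_[q]] L)⁻¹ * (n : L ≃ₐ[ℚ_[q]] L)) x = x
        rw [inv_mul_cancel]; rfl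
      rw [this]; rfl
    rw [h4, lq_norm_algEquiv, ← norm_neg, neg_sub]
    exact h3
  have hmem : (n : L ≃ₐ[ℚ_[q]] L)⁻¹ * h ∈ N :=
    hI ⟨hin, H.mul_mem (H.inv_mem (hNH n.2)) hh⟩
  have : h = (n : L ≃ₐ[ℚ_[q]] L) * ((n : L ≃ₐ[ℚ_[q]] L)⁻¹ * h) := by group
  rw [this]
  exact N.mul_mem n.2 hmem

end LQ4

/-! ### Unconditional forms of (LQ5) and (LQ6) -/

section towers

variable {L L' : LqField q} [FiniteDimensional ℚ_[q] L] [FiniteDimensional ℚ_[q] L']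

/-- **(LQ5)** valuations in towers: `v_{L'} = e(L'/L) · v_L` on `L`, `e(L'/L) = |I' ∩ Gal(L'/L)|`. -/
theorem lq_ordZ_inclusion' (h : L ≤ L') [Normal ℚ_[q] L] [Normal ℚ_[q] L'] (x : L) :
    lq_ordZ L' (IntermediateField.inclusion h x) =
      ((Nat.card ↥(lq_inertia L' ⊓ (lq_res h).ker) : ℕ) : ℤ) * lq_ordZ L x :=
  lq_ordZ_inclusion h (lq_valGroup _) x

/-- **(LQ5)** `|I'| = |I' ∩ Gal(L'/L)| · |I|`. -/
theorem lq_card_inertia_tower' (h : L ≤ L') [Normal ℚ_[q] L] [Normal ℚ_[q] L'] :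
    Nat.card (lq_inertia L') =
      Nat.card ↥(lq_inertia L' ⊓ (lq_res h).ker) * Nat.card (lq_inertia L) :=
  lq_card_inertia_tower h (lq_valGroup _) (lq_valGroup _) (lq_valGroup _)

/-- **(LQ5)** restriction maps inertia ONTO inertia. -/
theorem lq_map_inertia_eq' (h : L ≤ L') [Normal ℚ_[q] L] [Normal ℚ_[q] L'] :
    (lq_inertia L').map (lq_res h) = lq_inertia L :=
  lq_map_inertia_eq h (lq_valGroup _) (lq_valGroup _) (lq_valGroup _)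

theorem lq_res_inertia_surjective' (h : L ≤ L') [Normal ℚ_[q] L] [Normal ℚ_[q] L']
    {τ : L ≃ₐ[ℚ_[q]] L} (hτ : τ ∈ lq_inertia L) :
    ∃ σ ∈ lq_inertia L', lq_res h σ = τ :=
  lq_res_inertia_surjective h (lq_valGroup _) (lq_valGroup _) (lq_valGroup _) hτ

end towers

/-- `|𝓀[L]| = q ^ [Γ : I]` for `L / ℚ_q` Galois. -/
theorem lq_resCard_eq_pow_index (L : LqField q) [FiniteDimensional ℚ_[q] L] [IsGalois ℚ_[q] L] :
    lq_resCard L = q ^ (lq_inertia L).index := by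
  have h := lq_resCard_fixed_pow (⊤ : Subgroup (L ≃ₐ[ℚ_[q]] L))
  rw [lqu_fixed_top, lqu_resCard_bot, Subgroup.relIndex_top_right] at h
  exact h.symm

/-- **(LQ6)** enough unramified extensions. -/
theorem lq_exists_unram_ext (L : LqField q) [FiniteDimensional ℚ_[q] L] [IsGalois ℚ_[q] L]
    (m : ℕ) (hm : 0 < m) :
    ∃ L' : LqField q, L ≤ L' ∧ FiniteDimensional ℚ_[q] L' ∧ IsGalois ℚ_[q] L' ∧
      m ∣ (lq_inertia L').index :=
  lqu_exists_unram_ext_of_LQ1 (fun _ _ H => lq_resCard_fixed_pow H) L m hm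

end

end Fermat.Agent.S55
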