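import Fermat.Agent.S55.LocalQ.Val

/-!
# S55 / local block, concrete side: shared definitions

For `K L : LqField q`:
* `lq_resCard K` : cardinality of the residue field;
* `lq_intIncl h : 𝒪[K] →+* 𝒪[L]` for `h : K ≤ L`;
* the action of `L ≃ₐ[ℚ_[q]] L` on `𝒪[L]` (`lq_intAction`);
* `lq_inertia L : Subgroup (L ≃ₐ[ℚ_[q]] L)`;
* `lq_fixed H : LqField q`, the fixed field of a subgroup `H` of `L ≃ₐ[ℚ_[q]] L`, as a local field.
-/

set_option autoImplicit false

open scoped Valued NormedField NNReal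

namespace Fermat.Agent.S55

variable {q : ℕ} [Fact q.Prime]

noncomputable section

/-- The cardinality of the residue field. -/
def lq_resCard (K : LqField q) : ℕ := Nat.card 𝓀[K]

theorem lq_norm_inclusion {K L : LqField q} (h : K ≤ L) (x : K) :
    ‖IntermediateField.inclusion h x‖ = ‖x‖ := rfl

/-- The inclusion of the rings of integers for `K ≤ L`. -/
def lq_intIncl {K L : LqField q} (h : K ≤ L) : 𝒪[K] →+* 𝒪[L] where
  toFun x := ⟨IntermediateField.inclusion h x.1,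
    (lq_mem_integer_iff L _).mpr ((lq_mem_integer_iff K x.1).mp x.2)⟩
  map_one' := by ext; simp
  map_mul' x y := by ext; simp
  map_zero' := by ext; simp
  map_add' x y := by ext; simp

theorem lq_intIncl_coe {K L : LqField q} (h : K ≤ L) (x : 𝒪[K]) :
    ((lq_intIncl h x : 𝒪[L]) : L) = IntermediateField.inclusion h x.1 := rfl

theorem lq_intIncl_injective {K L : LqField q} (h : K ≤ L) :
    Function.Injective (lq_intIncl h) := by
  intro x y hxy
  have := congrArg (fun z : 𝒪[L] => (z : L)) hxy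
  simp only [lq_intIncl_coe] at this
  exact Subtype.ext ((IntermediateField.inclusion h).injective this)

variable (L : LqField q)

/-- The Galois group acts on the ring of integers. -/
instance lq_intAction : MulSemiringAction (L ≃ₐ[ℚ_[q]] L) 𝒪[L] where
  smul σ x := ⟨σ x.1, (lq_mem_integer_iff L _).mpr
    (by rw [lq_norm_algEquiv]; exact (lq_mem_integer_iff L x.1).mp x.2)⟩
  one_smul x := by ext; rfl
  mul_smul σ τ x := by ext; rfl
  smul_zero σ := Subtype.ext (map_zero σ)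
  smul_add σ x y := Subtype.ext (map_add σ _ _)
  smul_one σ := Subtype.ext (map_one σ)
  smul_mul σ x y := Subtype.ext (map_mul σ _ _)

theorem lq_smul_coe (σ : L ≃ₐ[ℚ_[q]] L) (x : 𝒪[L]) : ((σ • x : 𝒪[L]) : L) = σ (x : L) := rfl

/-- The inertia subgroup of `L ≃ₐ[ℚ_[q]] L`. -/
def lq_inertia : Subgroup (L ≃ₐ[ℚ_[q]] L) where
  carrier := {σ | ∀ x : L, ‖x‖ ≤ 1 → ‖σ x - x‖ < 1}
  one_mem' := by intro x _; simp
  mul_mem' := by
    intro σ τ hσ hτ x hx
    have h1 : ‖σ (τ x) - τ x‖ < 1 := hσ (τ x) (by rw [lq_norm_algEquiv]; exact hx)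
    have h2 : ‖τ x - x‖ < 1 := hτ x hx
    have : (σ * τ) x - x = (σ (τ x) - τ x) + (τ x - x) := by
      rw [AlgEquiv.mul_apply]; ring
    rw [this]
    exact (IsUltrametricDist.norm_add_le_max _ _).trans_lt (max_lt h1 h2)
  inv_mem' := by
    intro σ hσ x hx
    have h1 : ‖σ (σ⁻¹ x) - σ⁻¹ x‖ < 1 := hσ (σ⁻¹ x) (by rw [lq_norm_algEquiv]; exact hx)
    have : σ (σ⁻¹ x) = x := by
      change (σ * σ⁻¹) x = x
      rw [mul_inv_cancel]; rfl
    rw [this, ← norm_neg, neg_sub] at h1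
    exact h1

theorem lq_mem_inertia_iff (σ : L ≃ₐ[ℚ_[q]] L) :
    σ ∈ lq_inertia L ↔ ∀ x : L, ‖x‖ ≤ 1 → ‖σ x - x‖ < 1 := Iff.rfl

instance lq_inertia_normal : (lq_inertia L).Normal where
  conj_mem := by
    intro σ hσ τ x hx
    have h1 : ‖σ (τ⁻¹ x) - τ⁻¹ x‖ < 1 := hσ (τ⁻¹ x) (by rw [lq_norm_algEquiv]; exact hx)
    have h2 : (τ * σ * τ⁻¹) x - x = τ (σ (τ⁻¹ x) - τ⁻¹ x) := by
      have : τ (τ⁻¹ x) = x := by
        change (τ * τ⁻¹) x = x
        rw [mul_inv_cancel]; rfl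
      rw [map_sub, this]; rfl
    rw [h2, lq_norm_algEquiv]
    exact h1

variable {L}

/-- The fixed field of a subgroup of `L ≃ₐ[ℚ_[q]] L`, as a local field. -/
def lq_fixed (H : Subgroup (L ≃ₐ[ℚ_[q]] L)) : LqField q :=
  IntermediateField.lift (IntermediateField.fixedField H)

theorem lq_fixed_le (H : Subgroup (L ≃ₐ[ℚ_[q]] L)) : lq_fixed H ≤ L :=
  IntermediateField.lift_le _

theorem lq_mem_fixed_iff (H : Subgroup (L ≃ₐ[ℚ_[q]] L)) (x : L) :
    (x : PadicAlgCl q) ∈ lq_fixed H ↔ ∀ σ ∈ H, σ x = x := by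
  rw [lq_fixed, IntermediateField.mem_lift, IntermediateField.mem_fixedField_iff]

instance lq_fixed_finite [FiniteDimensional ℚ_[q] L] (H : Subgroup (L ≃ₐ[ℚ_[q]] L)) :
    FiniteDimensional ℚ_[q] (lq_fixed H) :=
  (IntermediateField.liftAlgEquiv (IntermediateField.fixedField H)).toLinearEquiv.finiteDimensional

end

end Fermat.Agent.S55
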