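import Fermat.Agent.S55.LocalQ.IsLocal

/-!
# S55 / local block: `lq_valOf` in terms of the norm of ANY embedding

For an abstract finite extension `F` of `ℚ_[q]` and any `ℚ_[q]`-embedding `g` of `F` into
`PadicAlgCl q` (or into an `LqField`), `lq_valOf F x ≤ 1 ↔ ‖g x‖ ≤ 1` etc.
-/

set_option autoImplicit false

open scoped Valued NormedField NNReal
open WithZero

namespace Fermat.Agent.S55

variable {q : ℕ} [Fact q.Prime]

noncomputable section

variable {F : Type} [Field F] [Algebra ℚ_[q] F] [FiniteDimensional ℚ_[q] F]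

omit [FiniteDimensional ℚ_[q] F] in
/-- All embeddings of `F` into `PadicAlgCl q` induce the same norm. -/
theorem lq_norm_embedding_eq (g g' : F →ₐ[ℚ_[q]] PadicAlgCl q) (x : F) : ‖g x‖ = ‖g' x‖ := by
  rw [← PadicAlgCl.spectralNorm_eq, ← PadicAlgCl.spectralNorm_eq, spectralNorm, spectralNorm,
    minpoly.algHom_eq g g.injective, minpoly.algHom_eq g' g'.injective]

theorem lq_norm_toImage (x : F) : ‖lq_toImage (q := q) F x‖ = ‖lq_emb (q := q) F x‖ := rfl

theorem lq_valOf_le_iff (g : F →ₐ[ℚ_[q]] PadicAlgCl q) (x y : F) :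
    lq_valOf (q := q) F x ≤ lq_valOf (q := q) F y ↔ ‖g x‖ ≤ ‖g y‖ := by
  rw [lq_valOf_apply, lq_valOf_apply, lq_val_le_iff, lq_norm_toImage, lq_norm_toImage,
    lq_norm_embedding_eq (lq_emb F) g, lq_norm_embedding_eq (lq_emb F) g]

theorem lq_valOf_lt_iff (g : F →ₐ[ℚ_[q]] PadicAlgCl q) (x y : F) :
    lq_valOf (q := q) F x < lq_valOf (q := q) F y ↔ ‖g x‖ < ‖g y‖ := by
  rw [← not_le, ← not_le, lq_valOf_le_iff g]

theorem lq_valOf_le_one_iff (g : F →ₐ[ℚ_[q]] PadicAlgCl q) (x : F) :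
    lq_valOf (q := q) F x ≤ 1 ↔ ‖g x‖ ≤ 1 := by
  have := lq_valOf_le_iff g x 1
  rwa [map_one, map_one, norm_one] at this

theorem lq_valOf_lt_one_iff (g : F →ₐ[ℚ_[q]] PadicAlgCl q) (x : F) :
    lq_valOf (q := q) F x < 1 ↔ ‖g x‖ < 1 := by
  have := lq_valOf_lt_iff g x 1
  rwa [map_one, map_one, norm_one] at this

theorem lq_valOf_eq_one_iff (g : F →ₐ[ℚ_[q]] PadicAlgCl q) (x : F) :
    lq_valOf (q := q) F x = 1 ↔ ‖g x‖ = 1 := by
  rw [le_antisymm_iff, le_antisymm_iff, lq_valOf_le_one_iff g]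
  have := lq_valOf_le_iff g 1 x
  rw [map_one, map_one, norm_one] at this
  rw [this]

/-- Version for an embedding into an `LqField`. -/
theorem lq_valOf_le_one_iff' {L : LqField q} (g : F →ₐ[ℚ_[q]] L) (x : F) :
    lq_valOf (q := q) F x ≤ 1 ↔ ‖g x‖ ≤ 1 :=
  lq_valOf_le_one_iff (L.val.comp g) x

theorem lq_valOf_lt_one_iff' {L : LqField q} (g : F →ₐ[ℚ_[q]] L) (x : F) :
    lq_valOf (q := q) F x < 1 ↔ ‖g x‖ < 1 :=
  lq_valOf_lt_one_iff (L.val.comp g) x

theorem lq_valOf_eq_one_iff' {L : LqField q} (g : F →ₐ[ℚ_[q]] L) (x : F) :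
    lq_valOf (q := q) F x = 1 ↔ ‖g x‖ = 1 :=
  lq_valOf_eq_one_iff (L.val.comp g) x

/-- The value of `lq_valOf` on the image of a subextension `F → L` in terms of `lq_ordZ L`:
`v_L = e · v_F` with `e = ord_L` of a uniformiser of `F`. Stated as: equal `lq_valOf` iff equal
norms. -/
theorem lq_valOf_eq_iff' {L : LqField q} (g : F →ₐ[ℚ_[q]] L) (x y : F) :
    lq_valOf (q := q) F x = lq_valOf (q := q) F y ↔ ‖g x‖ = ‖g y‖ := by
  rw [le_antisymm_iff, le_antisymm_iff, lq_valOf_le_iff (L.val.comp g),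
    lq_valOf_le_iff (L.val.comp g)]
  rfl

end

end Fermat.Agent.S55
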