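/-
S55 / [L] local toolkit over `ℚ_[q]` (helper24), part 10: units are norms from the maximal
unramified subextension, Frobenius form, for every layer of a finite extension `L/ℚ_[q]`.

`lq_unram_norm`: for `S ≤ Gal(L/ℚ_q)` (any finite `L`, not necessarily Galois over `ℚ_q`),
`φ ∈ S` a Frobenius lift for `S` (every `s ∈ S` is `φ^k` modulo inertia), and a unit `a` of the
fixed field of `S`: there is a unit `b` of `L`, fixed by `I ∩ S`, with
`∏_{i < f} φ^i b = a`, `f = [S : I ∩ S]`.

Proof: instantiate the abstract `lf_inertia_norm` (helper26, Local/Inertia.lean) with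
`E = L^S`, `v = lq_val L`, `w = lq_valOf (L^{I∩S})`, and transport along
`IntermediateField.subgroupEquivAlgEquiv S : S ≃* Gal(L/L^S)`.
-/
import Fermat.Agent.S55.Local.Inertia
import Fermat.Agent.S55.LocalQ.ValOfNorm
import Fermat.Agent.S55.LocalQ.Defs

set_option autoImplicit false
set_option linter.style.haveILetI false

namespace Fermat.Agent.S55

open WithZero Finset IntermediateField

variable {q : ℕ} [Fact q.Prime]

noncomputable section

section Generic

variable {K Ω : Type} [Field K] [Field Ω] [Algebra K Ω] [FiniteDimensional K Ω]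

/-- `Ω` is Galois over the fixed field of any subgroup of `Gal(Ω/K)`. -/
theorem lq_isGalois_fixedField (S : Subgroup (Ω ≃ₐ[K] Ω)) :
    IsGalois (fixedField S) Ω := by
  classical
  refine IsGalois.of_card_aut_eq_finrank _ _ ?_
  rw [IntermediateField.finrank_fixedField_eq_card]
  exact (Nat.card_congr (IntermediateField.subgroupEquivAlgEquiv S).toEquiv).symm

end Generic

section Main

variable {L : LqField q} [FiniteDimensional ℚ_[q] L]

/-- **Units of a layer are norms from its maximal unramified subextension** (Frobenius form). -/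
theorem lq_unram_norm (S : Subgroup (L ≃ₐ[ℚ_[q]] L)) (φ : L ≃ₐ[ℚ_[q]] L) (hφ : φ ∈ S)
    (hgen : ∀ s ∈ S, ∃ k : ℕ, s⁻¹ * φ ^ k ∈ lq_inertia L) (a : L) (ha : ∀ s ∈ S, s a = a)
    (hn : ‖a‖ = 1) :
    ∃ b : L, ‖b‖ = 1 ∧ (∀ s ∈ lq_inertia L ⊓ S, s b = b) ∧
      ∏ i ∈ Finset.range ((lq_inertia L).relIndex S), (φ ^ i) b = a := by
  haveI hgal : IsGalois (fixedField S) L := lq_isGalois_fixedField S
  have h : lf_IsLocal (fixedField S) L (lq_val L) := lq_isLocal L (fixedField S)
  haveI hfin : FiniteDimensional ℚ_[q] (fixedField (lf_inertia h)) :=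
    Module.Finite.of_injective ((fixedField (lf_inertia h)).val.restrictScalars ℚ_[q]).toLinearMap
      (fixedField (lf_inertia h)).val.injective
  have hw : lf_IsLocal (fixedField S) (fixedField (lf_inertia h))
      (lq_valOf (q := q) (fixedField (lf_inertia h))) :=
    lq_isLocalOf (fixedField (lf_inertia h)) (fixedField S)
  have hle : ∀ x : fixedField (lf_inertia h),
      lq_valOf (q := q) (fixedField (lf_inertia h)) x ≤ 1 ↔ lq_val L (x : L) ≤ 1 := by
    intro x
    rw [lq_valOf_le_one_iff' ((fixedField (lf_inertia h)).val.restrictScalars ℚ_[q]) x,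
      lq_val_le_one_iff]
    rfl
  have hlt : ∀ x : fixedField (lf_inertia h),
      lq_valOf (q := q) (fixedField (lf_inertia h)) x < 1 ↔ lq_val L (x : L) < 1 := by
    intro x
    rw [lq_valOf_lt_one_iff' ((fixedField (lf_inertia h)).val.restrictScalars ℚ_[q]) x,
      lq_val_lt_one_iff]
    rfl
  -- the dictionary between `S` and `Gal(L/L^S)`
  set e := IntermediateField.subgroupEquivAlgEquiv S with he
  have he_apply : ∀ (s : S) (x : L), e s x = (s : L ≃ₐ[ℚ_[q]] L) x := fun _ _ => rfl
  have hmem : ∀ s : S, e s ∈ lf_inertia h ↔ (s : L ≃ₐ[ℚ_[q]] L) ∈ lq_inertia L := by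
    intro s
    rw [lf_mem_inertia_iff, lq_mem_inertia_iff]
    refine forall_congr' fun x => ?_
    rw [lq_val_le_one_iff, lq_val_lt_one_iff, he_apply]
  have hφ' : ∀ g : L ≃ₐ[fixedField S] L, ∃ k : ℕ, g⁻¹ * (e ⟨φ, hφ⟩) ^ k ∈ lf_inertia h := by
    intro g
    obtain ⟨s, rfl⟩ := e.surjective g
    obtain ⟨k, hk⟩ := hgen s s.2
    refine ⟨k, ?_⟩
    rw [← map_pow, ← map_inv, ← map_mul, hmem]
    exact hk
  have hamem : a ∈ fixedField S := by
    rw [IntermediateField.mem_fixedField_iff]
    exact ha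
  have ha' : lq_val L (algebraMap (fixedField S) L ⟨a, hamem⟩) = 1 := by
    rw [lq_val_eq_one_iff]
    exact hn
  obtain ⟨b, hb1, hbfix, hbprod⟩ := lf_inertia_norm h _ hw hle hlt (e ⟨φ, hφ⟩) hφ' ⟨a, hamem⟩ ha'
  refine ⟨b, (lq_val_eq_one_iff L b).mp hb1, ?_, ?_⟩
  · rintro s ⟨hsI, hsS⟩
    have := hbfix (e ⟨s, hsS⟩) ((hmem ⟨s, hsS⟩).mpr hsI)
    rwa [he_apply] at this
  · have hidx : (lf_inertia h).index = (lq_inertia L).relIndex S := by
      have hmap : lf_inertia h = ((lq_inertia L).subgroupOf S).map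
          (e : S →* (L ≃ₐ[fixedField S] L)) := by
        ext g
        obtain ⟨s, rfl⟩ := e.surjective g
        rw [hmem]
        constructor
        · intro hs
          exact ⟨s, (Subgroup.mem_subgroupOf).mpr hs, rfl⟩
        · rintro ⟨t, ht, hte⟩
          have : t = s := e.injective hte
          subst this
          exact (Subgroup.mem_subgroupOf).mp ht
      rw [hmap, Subgroup.index_map_equiv]
      rfl
    rw [hidx] at hbprod
    have hpow : ∀ i : ℕ, (e ⟨φ, hφ⟩ ^ i) b = (φ ^ i) b := by
      intro i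
      rw [← map_pow, he_apply]
      rfl
    simp only [hpow] at hbprod
    exact hbprod

end Main

end

end Fermat.Agent.S55
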