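import Fermat.Agent.S55.LocalQ.Defs

/-!
# S55 / local block, concrete side (LQ5): towers `L ≤ L'` of local fields

For `L ≤ L'` in `LqField q` with `L/ℚ_q` normal we construct the restriction homomorphism
`lq_res h : (L' ≃ₐ[ℚ_[q]] L') →* (L ≃ₐ[ℚ_[q]] L)` and prove its basic properties.
-/

set_option autoImplicit false

open scoped Valued NormedField NNReal

namespace Fermat.Agent.S55

variable {q : ℕ} [Fact q.Prime]

noncomputable section

variable {L L' : LqField q}

/-- The `L`-algebra structure on `L'` coming from `L ≤ L'`. -/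
@[reducible] def lq_towerAlgebra (h : L ≤ L') : Algebra L L' :=
  (IntermediateField.inclusion h).toRingHom.toAlgebra

theorem lq_towerAlgebra_map (h : L ≤ L') (x : L) :
    letI := lq_towerAlgebra h
    algebraMap L L' x = IntermediateField.inclusion h x := rfl

theorem lq_tower_isScalarTower (h : L ≤ L') :
    letI := lq_towerAlgebra h
    IsScalarTower ℚ_[q] L L' := by
  let _ := lq_towerAlgebra h
  refine IsScalarTower.of_algebraMap_eq fun x => ?_
  rfl

/-- Restriction of automorphisms from `L'` to a normal subextension `L`. -/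
def lq_res (h : L ≤ L') [Normal ℚ_[q] L] : (L' ≃ₐ[ℚ_[q]] L') →* (L ≃ₐ[ℚ_[q]] L) :=
  letI := lq_towerAlgebra h
  haveI := lq_tower_isScalarTower h
  AlgEquiv.restrictNormalHom L

theorem lq_res_inclusion (h : L ≤ L') [Normal ℚ_[q] L] (σ : L' ≃ₐ[ℚ_[q]] L') (x : L) :
    IntermediateField.inclusion h (lq_res h σ x) = σ (IntermediateField.inclusion h x) := by
  let _ := lq_towerAlgebra h
  have := lq_tower_isScalarTower h
  exact AlgEquiv.restrictNormal_commutes σ L x

theorem lq_res_apply (h : L ≤ L') [Normal ℚ_[q] L] (σ : L' ≃ₐ[ℚ_[q]] L') (x : L) :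
    ((lq_res h σ x : L) : PadicAlgCl q) =
      ((σ (IntermediateField.inclusion h x) : L') : PadicAlgCl q) := by
  rw [← lq_res_inclusion]
  rfl

theorem lq_res_surjective (h : L ≤ L') [Normal ℚ_[q] L] [Normal ℚ_[q] L'] :
    Function.Surjective (lq_res h) := by
  let _ := lq_towerAlgebra h
  have := lq_tower_isScalarTower h
  exact AlgEquiv.restrictNormalHom_surjective L'

theorem lq_mem_ker_res_iff (h : L ≤ L') [Normal ℚ_[q] L] (σ : L' ≃ₐ[ℚ_[q]] L') :
    σ ∈ (lq_res h).ker ↔
      ∀ x : L, σ (IntermediateField.inclusion h x) = IntermediateField.inclusion h x := by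
  rw [MonoidHom.mem_ker]
  constructor
  · intro hσ x
    rw [← lq_res_inclusion, hσ]
    rfl
  · intro hσ
    refine AlgEquiv.ext fun x => ?_
    have hinj : Function.Injective (IntermediateField.inclusion h) :=
      (IntermediateField.inclusion h).injective
    apply hinj
    rw [lq_res_inclusion, hσ]
    rfl

/-- Restriction maps inertia into inertia. -/
theorem lq_res_mem_inertia (h : L ≤ L') [Normal ℚ_[q] L] {σ : L' ≃ₐ[ℚ_[q]] L'}
    (hσ : σ ∈ lq_inertia L') : lq_res h σ ∈ lq_inertia L := by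
  intro x hx
  have h1 := hσ (IntermediateField.inclusion h x) (by rw [lq_norm_inclusion]; exact hx)
  rw [← lq_res_inclusion, ← map_sub, lq_norm_inclusion] at h1
  exact h1

theorem lq_inertia_le_comap_res (h : L ≤ L') [Normal ℚ_[q] L] :
    lq_inertia L' ≤ (lq_inertia L).comap (lq_res h) := fun _ hσ =>
  lq_res_mem_inertia h hσ

/-- Membership in `lq_fixed H` for an element of the ambient field. -/
theorem lq_mem_fixed_iff' (H : Subgroup (L ≃ₐ[ℚ_[q]] L)) (x : PadicAlgCl q) :
    x ∈ lq_fixed H ↔ ∃ x₀ : L, (x₀ : PadicAlgCl q) = x ∧ ∀ σ ∈ H, σ x₀ = x₀ := by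
  constructor
  · intro hx
    have hxL : x ∈ L := lq_fixed_le H hx
    refine ⟨⟨x, hxL⟩, rfl, ?_⟩
    exact (lq_mem_fixed_iff H ⟨x, hxL⟩).mp hx
  · rintro ⟨x₀, rfl, hfix⟩
    exact (lq_mem_fixed_iff H x₀).mpr hfix

/-- The fixed field of the preimage of `H` under restriction is the fixed field of `H`. -/
theorem lq_fixed_comap_res (h : L ≤ L') [Normal ℚ_[q] L] [FiniteDimensional ℚ_[q] L']
    [Normal ℚ_[q] L'] (H : Subgroup (L ≃ₐ[ℚ_[q]] L)) :
    lq_fixed (H.comap (lq_res h)) = lq_fixed H := by
  have : IsGalois ℚ_[q] L' := ⟨⟩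
  ext x
  rw [lq_mem_fixed_iff', lq_mem_fixed_iff']
  constructor
  · rintro ⟨x', rfl, hfix⟩
    -- `x'` is fixed by `Gal(L'/L)`, hence lies in `L`
    set M : IntermediateField ℚ_[q] L' := IntermediateField.restrict h with hM
    have hx'M : x' ∈ M := by
      rw [← IsGalois.fixedField_fixingSubgroup M, IntermediateField.mem_fixedField_iff]
      intro σ hσ
      apply hfix σ
      rw [Subgroup.mem_comap]
      have hker : σ ∈ (lq_res h).ker := by
        rw [lq_mem_ker_res_iff]
        intro y
        exact (IntermediateField.mem_fixingSubgroup_iff M σ).mp hσ _ ⟨y, rfl⟩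
      rw [MonoidHom.mem_ker.mp hker]
      exact H.one_mem
    obtain ⟨x₀, hx₀⟩ := hx'M
    refine ⟨x₀, ?_, ?_⟩
    · rw [← hx₀]; rfl
    · intro τ hτ
      obtain ⟨σ, rfl⟩ := lq_res_surjective h τ
      have h1 := hfix σ (Subgroup.mem_comap.mpr hτ)
      have hinj : Function.Injective (IntermediateField.inclusion h) :=
        (IntermediateField.inclusion h).injective
      apply hinj
      rw [lq_res_inclusion]
      have hx₀' : IntermediateField.inclusion h x₀ = x' := hx₀
      rw [hx₀', h1]
  · rintro ⟨x₀, rfl, hfix⟩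
    refine ⟨IntermediateField.inclusion h x₀, rfl, ?_⟩
    intro σ hσ
    rw [← lq_res_inclusion, hfix _ (Subgroup.mem_comap.mp hσ)]

end

end Fermat.Agent.S55
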