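import Fermat.Agent.S55.LocalQ.Integers
import Fermat.Agent.S55.Local.PowerIndex

/-!
# S55 / local block, concrete side: the power index `[Kˣ : Kˣ^p]` of a finite extension of `ℚ_q`

For `K : LqField q` finite over `ℚ_[q]` and a prime `p`:
`piq_index_pow : [Kˣ : Kˣ^p] = p * #μ_p(K) * (if p = q then q ^ [K : ℚ_q] else 1)`.
In particular, if `K` contains a primitive `p`-th root of unity, the index is `p^2` for `q ≠ p`
and `p^(2 + [K : ℚ_p])` for `q = p` (`piq_index_pow_of_primitiveRoot`).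
-/

set_option autoImplicit false
set_option linter.style.haveILetI false
set_option linter.unusedSectionVars false
set_option linter.deprecated false

open scoped Valued NormedField NNReal

namespace Fermat.Agent.S55

variable {q : ℕ} [Fact q.Prime]

noncomputable section

variable (K : LqField q) [FiniteDimensional ℚ_[q] K]

/-- `aO` has finite index in `O` (compactness). -/
theorem piq_ball_relIndex_ne_zero {a : K} (ha : a ≠ 0) :
    (pi_ball a).relIndex (pi_ball (1 : K)) ≠ 0 := by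
  have hc : CompactSpace ↥(pi_ball (1 : K)) := by
    have h : ((pi_ball (1 : K) : AddSubgroup K) : Set K) = Metric.closedBall 0 1 := by
      ext x
      simp [pi_mem_ball]
    have hcomp : IsCompact ((pi_ball (1 : K) : AddSubgroup K) : Set K) := by
      rw [h]
      exact isCompact_closedBall 0 1
    exact isCompact_iff_compactSpace.mp hcomp
  have hopen : IsOpen (((pi_ball a).addSubgroupOf (pi_ball (1 : K)) :
      AddSubgroup ↥(pi_ball (1 : K))) : Set ↥(pi_ball (1 : K))) := by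
    have h : (((pi_ball a).addSubgroupOf (pi_ball (1 : K)) :
        AddSubgroup ↥(pi_ball (1 : K))) : Set ↥(pi_ball (1 : K)))
        = Subtype.val ⁻¹' (Metric.closedBall (0 : K) ‖a‖) := by
      ext x
      simp [AddSubgroup.mem_addSubgroupOf, pi_mem_ball]
    rw [h]
    exact (IsUltrametricDist.isOpen_closedBall (0 : K) (norm_ne_zero_iff.mpr ha)).preimage
      continuous_subtype_val
  have hfin : Finite (↥(pi_ball (1 : K)) ⧸ (pi_ball a).addSubgroupOf (pi_ball (1 : K))) :=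
    AddSubgroup.quotient_finite_of_isOpen _ hopen
  rw [AddSubgroup.relIndex, AddSubgroup.index]
  exact Nat.card_pos.ne'

/-- `U_a` has finite index in the norm-one units. -/
theorem piq_U_relIndex_ne_zero {a : K} (ha : a ≠ 0) :
    (pi_U a).relIndex (pi_U1 K) ≠ 0 := by
  have hfin : Finite (↥(pi_ball (1 : K)) ⧸ (pi_ball a).addSubgroupOf (pi_ball (1 : K))) := by
    apply Nat.finite_of_card_ne_zero
    have := piq_ball_relIndex_ne_zero K ha
    rwa [AddSubgroup.relIndex, AddSubgroup.index] at this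
  refine (Fermat.Agent.S14.fi_relIndex_le_card (pi_U a) (pi_U1 K)
    (S := ↥(pi_ball (1 : K)) ⧸ (pi_ball a).addSubgroupOf (pi_ball (1 : K)))
    (fun x => QuotientAddGroup.mk ⟨((x : Kˣ) : K), by
      rw [pi_mem_ball, norm_one]; exact (pi_mem_U1.mp x.2).le⟩) ?_).1
  intro x y hxy
  rw [QuotientAddGroup.eq, AddSubgroup.mem_addSubgroupOf] at hxy
  rw [pi_inv_mul_mem_U (pi_mem_U1.mp x.2) (pi_mem_U1.mp y.2)]
  have h := pi_mem_ball.mp hxy
  simpa [neg_add_eq_sub] using h

omit [FiniteDimensional ℚ_[q] K] in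
theorem piq_norm_natCast (n : ℕ) : ‖(n : K)‖ = ‖(n : ℚ_[q])‖ := by
  have h : (n : K) = algebraMap ℚ_[q] K (n : ℚ_[q]) := by simp
  rw [h, lq_norm_algebraMap]

/-- `[O : pO] = 1` for a prime `p ≠ q`. -/
theorem piq_relIndex_ball_of_ne {p : ℕ} (hp : p.Prime) (hpq : p ≠ q) :
    (pi_ball ((p : ℕ) : K)).relIndex (pi_ball (1 : K)) = 1 := by
  rw [AddSubgroup.relIndex_eq_one]
  intro x hx
  rw [pi_mem_ball] at hx ⊢
  have h1 : ‖((p : ℕ) : K)‖ = 1 := by
    rw [piq_norm_natCast, Padic.norm_natCast_eq_one_iff]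
    exact (Nat.coprime_primes (Fact.out : q.Prime) hp).mpr (Ne.symm hpq)
  rw [h1]
  rwa [norm_one] at hx

set_option synthInstance.maxHeartbeats 200000 in
/-- `[O : qO] = q ^ [K : ℚ_q]`. -/
theorem piq_relIndex_ball_self :
    (pi_ball ((q : ℕ) : K)).relIndex (pi_ball (1 : K)) = q ^ Module.finrank ℚ_[q] K := by
  -- the quotient `𝒪[K] ⧸ q 𝒪[K]` has dimension `n` over `ℤ_q ⧸ 𝔪`
  set P := IsLocalRing.maximalIdeal ℤ_[q] with hP
  have hfr := Ideal.finrank_quotient_map (R := ℤ_[q]) (S := 𝒪[K]) (K := ℚ_[q]) (L := K) P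
  have hcardP : Nat.card (ℤ_[q] ⧸ P) = q := by
    have := lq_cardQuot_padicInt (q := q)
    rwa [Submodule.cardQuot_apply] at this
  letI : Field (ℤ_[q] ⧸ P) := Ideal.Quotient.field P
  haveI : Finite (ℤ_[q] ⧸ P) := Nat.finite_of_card_ne_zero (by
    rw [hcardP]; exact (Fact.out : q.Prime).ne_zero)
  haveI : FiniteDimensional (ℤ_[q] ⧸ P) (𝒪[K] ⧸ Ideal.map (algebraMap ℤ_[q] 𝒪[K]) P) :=
    FiniteDimensional.of_finrank_pos (by
      rw [hfr]; exact Module.finrank_pos)
  have hcard : Nat.card (𝒪[K] ⧸ Ideal.map (algebraMap ℤ_[q] 𝒪[K]) P)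
      = q ^ Module.finrank ℚ_[q] K := by
    rw [Module.natCard_eq_pow_finrank (K := ℤ_[q] ⧸ P), hfr, hcardP]
  rw [← hcard, AddSubgroup.relIndex, AddSubgroup.index]
  -- identify the two quotients
  have hmap : Ideal.map (algebraMap ℤ_[q] 𝒪[K]) P = Ideal.span {((q : ℕ) : 𝒪[K])} := by
    rw [hP, PadicInt.maximalIdeal_eq_span_p, Ideal.map_span, Set.image_singleton]
    simp
  let e : ↥(pi_ball (1 : K)) ≃ 𝒪[K] :=
    { toFun := fun x => ⟨(x : K), (lq_mem_integer_iff K _).mpr (by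
        have := pi_mem_ball.mp x.2; rwa [norm_one] at this)⟩
      invFun := fun y => ⟨(y : K), by
        rw [pi_mem_ball, norm_one]; exact (lq_mem_integer_iff K _).mp y.2⟩
      left_inv := fun _ => rfl
      right_inv := fun _ => rfl }
  refine Nat.card_congr (Quotient.congr e ?_)
  intro x y
  rw [QuotientAddGroup.leftRel_apply, AddSubgroup.mem_addSubgroupOf,
    Submodule.quotientRel_def, hmap, Ideal.mem_span_singleton, pi_mem_ball]
  have hq0 : ((q : ℕ) : K) ≠ 0 := lq_natCast_ne_zero K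
  have hsub : ((-x + y : ↥(pi_ball (1 : K))) : K) = -(x : K) + (y : K) := rfl
  have hsub' : ((e x - e y : 𝒪[K]) : K) = (x : K) - (y : K) := rfl
  rw [hsub]
  constructor
  · intro h
    refine ⟨⟨((x : K) - (y : K)) / ((q : ℕ) : K), (lq_mem_integer_iff K _).mpr ?_⟩, ?_⟩
    · rw [norm_div, div_le_one (norm_pos_iff.mpr hq0)]
      have e1 : (x : K) - (y : K) = -(-(x : K) + (y : K)) := by ring
      rw [e1, norm_neg]
      exact h
    · apply Subtype.ext
      rw [hsub']
      simp only [Subring.coe_mul, Subring.coe_natCast]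
      rw [mul_div_cancel₀ _ hq0]
  · rintro ⟨c, hc⟩
    have e1 : -(x : K) + (y : K) = -(((q : ℕ) : K) * (c : K)) := by
      have := congrArg (fun z : 𝒪[K] => (z : K)) hc
      simp only [Subring.coe_mul, Subring.coe_natCast] at this
      rw [← this, hsub']
      ring
    rw [e1, norm_neg, norm_mul]
    calc ‖((q : ℕ) : K)‖ * ‖(c : K)‖ ≤ ‖((q : ℕ) : K)‖ * 1 :=
          mul_le_mul_of_nonneg_left ((lq_mem_integer_iff K _).mp c.2) (norm_nonneg _)
      _ = ‖((q : ℕ) : K)‖ := mul_one _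

/-- **Local power index**: `[Kˣ : Kˣ^p] = p * #μ_p(K) * [O : pO]`, with
`[O : pO] = q ^ [K : ℚ_q]` if `p = q` and `1` otherwise. -/
theorem piq_index_pow (p : ℕ) [hp : Fact p.Prime] :
    (powMonoidHom p : Kˣ →* Kˣ).range.index
      = p * Nat.card (powMonoidHom p : Kˣ →* Kˣ).ker *
        (if p = q then q ^ Module.finrank ℚ_[q] K else 1) ∧
    (powMonoidHom p : Kˣ →* Kˣ).range.index ≠ 0 := by
  have hp0 : ((p : ℕ) : K) ≠ 0 := by
    have : (p : ℕ) ≠ 0 := hp.out.ne_zero
    exact_mod_cast this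
  have hpn : 0 < ‖((p : ℕ) : K)‖ := norm_pos_iff.mpr hp0
  set a : K := ((p : ℕ) : K) * (lq_unif K : K) with ha
  have ha0 : a ≠ 0 := mul_ne_zero hp0 (lq_unif_ne_zero K)
  have han : ‖a‖ < ‖((p : ℕ) : K)‖ := by
    rw [ha, norm_mul]
    calc ‖((p : ℕ) : K)‖ * ‖(lq_unif K : K)‖ < ‖((p : ℕ) : K)‖ * 1 :=
          mul_lt_mul_of_pos_left (lq_norm_unif_lt_one K) hpn
      _ = ‖((p : ℕ) : K)‖ := mul_one _
  have hker : ∀ x : Kˣ, lq_ord K x = 1 ↔ ‖(x : K)‖ = 1 := by
    intro x
    rw [lq_ord_apply, ← lq_ordZ_eq_zero_iff K x.ne_zero]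
    constructor
    · intro h
      exact Multiplicative.ofAdd.injective h
    · intro h
      rw [h]
      rfl
  have key := pi_index_pow p (lq_ord K) (lq_ord_surjective K) hker a ha0 han
    (piq_U_relIndex_ne_zero K ha0) (piq_ball_relIndex_ne_zero K hp0)
  obtain ⟨h1, h2⟩ := key
  refine ⟨?_, h2⟩
  rw [h1]
  congr 1
  split_ifs with hpq
  · subst hpq
    exact piq_relIndex_ball_self K
  · exact piq_relIndex_ball_of_ne K hp.out hpq

/-- If `K` contains a primitive `p`-th root of unity, `[Kˣ : Kˣ^p]` is `p^2` for `p ≠ q` and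
`p^(2 + [K : ℚ_p])` for `p = q`. -/
theorem piq_index_pow_of_primitiveRoot (p : ℕ) [hp : Fact p.Prime] {ζ : K}
    (hζ : IsPrimitiveRoot ζ p) :
    (powMonoidHom p : Kˣ →* Kˣ).range.index
      = if p = q then p ^ (2 + Module.finrank ℚ_[q] K) else p ^ 2 := by
  haveI : NeZero p := ⟨hp.out.ne_zero⟩
  have hker : (powMonoidHom p : Kˣ →* Kˣ).ker = rootsOfUnity p K := by
    ext x
    rw [MonoidHom.mem_ker, mem_rootsOfUnity]
    rfl
  have hcard : Nat.card (powMonoidHom p : Kˣ →* Kˣ).ker = p := by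
    rw [hker]
    exact hζ.card_rootsOfUnity
  rw [(piq_index_pow K p).1, hcard]
  split_ifs with hpq
  · subst hpq
    ring
  · ring

end

end Fermat.Agent.S55
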