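import Mathlib

/-!
# S55 / local block, concrete side (Q1): finite extensions of `ℚ_[q]` inside `PadicAlgCl q`

Carrier: `K : IntermediateField ℚ_[q] (PadicAlgCl q)`, normed by the restriction of the (spectral)
norm of `PadicAlgCl q`.  For `[FiniteDimensional ℚ_[q] K]` we show that `K` is complete, that its
ring of integers `𝒪[K]` (Mathlib's `Valued.integer`) is a compact discrete valuation ring with
finite residue field `𝓀[K]`, that `ℚ_[q]`-algebra homomorphisms are isometries, and we construct the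
normalised valuation `lq_ord K : Kˣ →* Multiplicative ℤ`.
-/

set_option autoImplicit false

open scoped Valued NormedField NNReal

namespace Fermat.Agent.S55

variable {q : ℕ} [Fact q.Prime]

noncomputable section

/-- Local fields: intermediate fields of `PadicAlgCl q / ℚ_[q]`. -/
abbrev LqField (q : ℕ) [Fact q.Prime] : Type := IntermediateField ℚ_[q] (PadicAlgCl q)

variable (K : LqField q)

instance lq_valued : Valued K ℝ≥0 := NormedField.toValued

instance lq_rankOne : (Valued.v : Valuation K ℝ≥0).RankOne :=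
  inferInstanceAs (NormedField.valuation (K := K)).RankOne

theorem lq_mem_integer_iff (x : K) : x ∈ 𝒪[K] ↔ ‖x‖ ≤ 1 := Valued.integer.mem_iff

theorem lq_norm_coe (x : K) : ‖(x : PadicAlgCl q)‖ = ‖x‖ := rfl

section finite

variable [FiniteDimensional ℚ_[q] K]

instance lq_proper : ProperSpace K := FiniteDimensional.proper ℚ_[q] K

instance lq_complete : CompleteSpace K := FiniteDimensional.complete ℚ_[q] K

instance lq_compact_integer : CompactSpace 𝒪[K] := by
  have h : ((𝒪[K] : Subring K) : Set K) = Metric.closedBall 0 1 := by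
    ext x
    simp [lq_mem_integer_iff]
  have hc : IsCompact ((𝒪[K] : Subring K) : Set K) := by
    rw [h]
    exact isCompact_closedBall 0 1
  exact isCompact_iff_compactSpace.mp hc

theorem lq_struct :
    CompleteSpace 𝒪[K] ∧ IsDiscreteValuationRing ↥𝒪[K] ∧ Finite 𝓀[K] :=
  Valued.integer.compactSpace_iff_completeSpace_and_isDiscreteValuationRing_and_finite_residueField.mp
    inferInstance

instance lq_complete_integer : CompleteSpace 𝒪[K] := (lq_struct K).1

instance lq_dvr : IsDiscreteValuationRing ↥𝒪[K] := (lq_struct K).2.1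

instance lq_finite_residue : Finite 𝓀[K] := (lq_struct K).2.2

end finite

/-! ### `ℚ_[q]`-algebra homomorphisms are isometries -/

theorem lq_norm_eq_spectralValue (x : K) :
    ‖x‖ = spectralValue (minpoly ℚ_[q] x) := by
  rw [← lq_norm_coe, ← PadicAlgCl.spectralNorm_eq, spectralNorm]
  congr 1
  exact (minpoly.algebraMap_eq (algebraMap K (PadicAlgCl q)).injective x)

variable {K}

theorem lq_norm_algHom {L : LqField q} (φ : K →ₐ[ℚ_[q]] L) (x : K) : ‖φ x‖ = ‖x‖ := by
  rw [lq_norm_eq_spectralValue, lq_norm_eq_spectralValue,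
    minpoly.algHom_eq φ φ.injective x]

theorem lq_norm_algEquiv {L : LqField q} (φ : K ≃ₐ[ℚ_[q]] L) (x : K) : ‖φ x‖ = ‖x‖ :=
  lq_norm_algHom φ.toAlgHom x

/-- Automorphisms of `L` over a subfield `K` are isometries. -/
theorem lq_norm_aut {F : Type*} [Field F] [Algebra ℚ_[q] F] [Algebra F K]
    [IsScalarTower ℚ_[q] F K] (σ : K ≃ₐ[F] K) (x : K) : ‖σ x‖ = ‖x‖ :=
  lq_norm_algEquiv (σ.restrictScalars ℚ_[q]) x

/-! ### Uniformiser and the normalised valuation -/

section ord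

variable (K) [FiniteDimensional ℚ_[q] K]

theorem lq_exists_irreducible : ∃ ϖ : 𝒪[K], Irreducible ϖ :=
  IsDiscreteValuationRing.exists_irreducible _

/-- A chosen uniformiser of `K`. -/
def lq_unif : 𝒪[K] := (lq_exists_irreducible K).choose

theorem lq_unif_irreducible : Irreducible (lq_unif K) := (lq_exists_irreducible K).choose_spec

theorem lq_norm_unif_lt_one : ‖(lq_unif K : K)‖ < 1 :=
  Valued.integer.norm_irreducible_lt_one (lq_unif_irreducible K)

theorem lq_norm_unif_pos : 0 < ‖(lq_unif K : K)‖ :=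
  Valued.integer.norm_irreducible_pos (lq_unif_irreducible K)

theorem lq_unif_ne_zero : (lq_unif K : K) ≠ 0 := norm_pos_iff.mp (lq_norm_unif_pos K)

omit [FiniteDimensional ℚ_[q] K] in
theorem lq_norm_unit (u : 𝒪[K]ˣ) : ‖((u : 𝒪[K]) : K)‖ = 1 := Valued.integer.norm_coe_unit u

theorem lq_exists_norm_eq_pow_of_mem {x : K} (hx : x ≠ 0) (hx1 : ‖x‖ ≤ 1) :
    ∃ n : ℕ, ‖x‖ = ‖(lq_unif K : K)‖ ^ n := by
  have hmem : x ∈ 𝒪[K] := (lq_mem_integer_iff K x).mpr hx1
  have hne : (⟨x, hmem⟩ : 𝒪[K]) ≠ 0 := fun h => hx (congrArg Subtype.val h)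
  obtain ⟨n, u, hu⟩ := IsDiscreteValuationRing.eq_unit_mul_pow_irreducible hne (lq_unif_irreducible K)
  refine ⟨n, ?_⟩
  have h1 := congrArg (fun y : 𝒪[K] => ‖(y : K)‖) hu
  simp only [Subring.coe_mul, SubmonoidClass.coe_pow, norm_mul, norm_pow] at h1
  rw [h1, lq_norm_unit, one_mul]

theorem lq_exists_norm_eq_zpow {x : K} (hx : x ≠ 0) :
    ∃ n : ℤ, ‖x‖ = ‖(lq_unif K : K)‖ ^ n := by
  rcases le_or_gt ‖x‖ 1 with h | h
  · obtain ⟨n, hn⟩ := lq_exists_norm_eq_pow_of_mem K hx h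
    exact ⟨n, by rw [hn, zpow_natCast]⟩
  · have hx' : x⁻¹ ≠ 0 := inv_ne_zero hx
    have h' : ‖x⁻¹‖ ≤ 1 := by
      rw [norm_inv]
      exact inv_le_one_of_one_le₀ h.le
    obtain ⟨n, hn⟩ := lq_exists_norm_eq_pow_of_mem K hx' h'
    refine ⟨-n, ?_⟩
    rw [zpow_neg, zpow_natCast, ← hn, norm_inv, inv_inv]

theorem lq_zpow_injective : Function.Injective (fun n : ℤ => ‖(lq_unif K : K)‖ ^ n) :=
  zpow_right_injective₀ (lq_norm_unif_pos K) (lq_norm_unif_lt_one K).ne

open Classical in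
/-- The normalised additive valuation on nonzero elements (as an integer). -/
def lq_ordZ (x : K) : ℤ := if hx : x ≠ 0 then (lq_exists_norm_eq_zpow K hx).choose else 0

theorem lq_ordZ_spec {x : K} (hx : x ≠ 0) : ‖x‖ = ‖(lq_unif K : K)‖ ^ lq_ordZ K x := by
  rw [lq_ordZ, dif_pos hx]
  exact (lq_exists_norm_eq_zpow K hx).choose_spec

theorem lq_ordZ_eq_of_norm_eq {x : K} (hx : x ≠ 0) {n : ℤ} (h : ‖x‖ = ‖(lq_unif K : K)‖ ^ n) :
    lq_ordZ K x = n :=
  lq_zpow_injective K ((lq_ordZ_spec K hx).symm.trans h)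

theorem lq_ordZ_mul {x y : K} (hx : x ≠ 0) (hy : y ≠ 0) :
    lq_ordZ K (x * y) = lq_ordZ K x + lq_ordZ K y := by
  apply lq_ordZ_eq_of_norm_eq K (mul_ne_zero hx hy)
  rw [norm_mul, lq_ordZ_spec K hx, lq_ordZ_spec K hy, zpow_add₀ (lq_norm_unif_pos K).ne']

theorem lq_ordZ_one : lq_ordZ K (1 : K) = 0 :=
  lq_ordZ_eq_of_norm_eq K one_ne_zero (by simp)

theorem lq_ordZ_unif : lq_ordZ K (lq_unif K : K) = 1 :=
  lq_ordZ_eq_of_norm_eq K (lq_unif_ne_zero K) (by simp)

/-- The normalised valuation `Kˣ →* ℤ`. -/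
def lq_ord : Kˣ →* Multiplicative ℤ where
  toFun u := Multiplicative.ofAdd (lq_ordZ K (u : K))
  map_one' := by simp [lq_ordZ_one]
  map_mul' u v := by
    rw [Units.val_mul, lq_ordZ_mul K u.ne_zero v.ne_zero, ofAdd_add]

theorem lq_ord_apply (u : Kˣ) : lq_ord K u = Multiplicative.ofAdd (lq_ordZ K (u : K)) := rfl

theorem lq_ord_surjective : Function.Surjective (lq_ord K) := by
  intro n
  refine ⟨(Units.mk0 (lq_unif K : K) (lq_unif_ne_zero K)) ^ (Multiplicative.toAdd n), ?_⟩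
  rw [map_zpow, lq_ord_apply, Units.val_mk0, lq_ordZ_unif, ← ofAdd_zsmul]
  simp

theorem lq_ordZ_nonneg_iff {x : K} (hx : x ≠ 0) : 0 ≤ lq_ordZ K x ↔ ‖x‖ ≤ 1 := by
  rw [lq_ordZ_spec K hx]
  exact (zpow_le_one_iff_right_of_lt_one₀ (lq_norm_unif_pos K) (lq_norm_unif_lt_one K)).symm

theorem lq_ordZ_eq_zero_iff {x : K} (hx : x ≠ 0) : lq_ordZ K x = 0 ↔ ‖x‖ = 1 := by
  constructor
  · intro h
    rw [lq_ordZ_spec K hx, h, zpow_zero]
  · intro h
    exact lq_ordZ_eq_of_norm_eq K hx (by rw [h, zpow_zero])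

/-- The normalised valuation is invariant under automorphisms. -/
theorem lq_ordZ_aut {F : Type*} [Field F] [Algebra ℚ_[q] F] [Algebra F K]
    [IsScalarTower ℚ_[q] F K] (σ : K ≃ₐ[F] K) (x : K) : lq_ordZ K (σ x) = lq_ordZ K x := by
  by_cases hx : x = 0
  · simp [hx]
  · have hσ : σ x ≠ 0 := (map_ne_zero σ).mpr hx
    apply lq_ordZ_eq_of_norm_eq K hσ
    rw [lq_norm_aut σ x, lq_ordZ_spec K hx]

end ord

end

end Fermat.Agent.S55
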