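import Mathlib
import Fermat.Agent.S55.LocalCF.SeamInfl

/-!
# S55 / local fields: the arithmetic Frobenius of a layer

For a finite Galois extension `L / ℚ_q` and a subgroup `H` of its Galois group, an element `φ`
acts on the residue field of `L` as `x ↦ x ^ |κ(L^H)|` if and only if its class modulo inertia is
the `lc_resDeg`-th power of the class of the Frobenius element of the formation of `L`.

* `lq_isFrob_pow` : powers of Frobenius elements;
* `lq_isFrob_mul_inertia`, `lq_isFrob_inertia_mul` : changing a Frobenius element by inertia;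
* `lq_resDeg_mul_relIndex` : `[G : H I] * [H : H ∩ I] = [G : I]`;
* `lq_resCard_fixed_eq` : `|κ(L^H)| = q ^ [G : H I]`;
* `lq_isFrob_iff_frobSub` : the characterisation above.
-/

set_option autoImplicit false
set_option linter.unusedSectionVars false

open scoped Valued NormedField NNReal

namespace Fermat.Agent.S55

variable {q : ℕ} [Fact q.Prime]

/-- **(F3)** Powers of Frobenius elements are Frobenius elements. -/
theorem lq_isFrob_pow {L : LqField q} {c : ℕ} {φ : ↥L ≃ₐ[ℚ_[q]] ↥L} (hφ : lq_IsFrob L c φ)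
    (r : ℕ) : lq_IsFrob L (c ^ r) (φ ^ r) := by
  induction r with
  | zero =>
    intro x _
    simp
  | succ r ih =>
    intro x hx
    have hxr : ‖x ^ c ^ r‖ ≤ 1 := by
      rw [norm_pow]; exact pow_le_one₀ (norm_nonneg _) hx
    have h1 : ‖φ ((φ ^ r) x) - φ (x ^ c ^ r)‖ < 1 := by
      rw [← map_sub, lq_norm_algEquiv]; exact ih x hx
    have h2 : ‖φ (x ^ c ^ r) - (x ^ c ^ r) ^ c‖ < 1 := hφ _ hxr
    have e : (φ ^ (r + 1)) x - x ^ c ^ (r + 1) =
        (φ ((φ ^ r) x) - φ (x ^ c ^ r)) + (φ (x ^ c ^ r) - (x ^ c ^ r) ^ c) := by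
      rw [pow_succ' φ r, AlgEquiv.mul_apply, ← pow_mul, ← pow_succ]; ring
    rw [e]
    exact (IsUltrametricDist.norm_add_le_max _ _).trans_lt (max_lt h1 h2)

/-- **(F3')** A Frobenius element times an element of inertia is a Frobenius element. -/
theorem lq_isFrob_mul_inertia {L : LqField q} {c : ℕ} {φ τ : ↥L ≃ₐ[ℚ_[q]] ↥L}
    (hφ : lq_IsFrob L c φ) (hτ : τ ∈ lq_inertia L) : lq_IsFrob L c (φ * τ) := by
  intro x hx
  have h1 : ‖φ (τ x) - φ x‖ < 1 := by
    rw [← map_sub, lq_norm_algEquiv]; exact hτ x hx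
  have e : (φ * τ) x - x ^ c = (φ (τ x) - φ x) + (φ x - x ^ c) := by
    rw [AlgEquiv.mul_apply]; ring
  rw [e]
  exact (IsUltrametricDist.norm_add_le_max _ _).trans_lt (max_lt h1 (hφ x hx))

/-- **(F3')** An element of inertia times a Frobenius element is a Frobenius element. -/
theorem lq_isFrob_inertia_mul {L : LqField q} {c : ℕ} {φ τ : ↥L ≃ₐ[ℚ_[q]] ↥L}
    (hφ : lq_IsFrob L c φ) (hτ : τ ∈ lq_inertia L) : lq_IsFrob L c (τ * φ) := by
  intro x hx
  have h1 : ‖τ (φ x) - φ x‖ < 1 := hτ (φ x) (by rw [lq_norm_algEquiv]; exact hx)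
  have e : (τ * φ) x - x ^ c = (τ (φ x) - φ x) + (φ x - x ^ c) := by
    rw [AlgEquiv.mul_apply]; ring
  rw [e]
  exact (IsUltrametricDist.norm_add_le_max _ _).trans_lt (max_lt h1 (hφ x hx))

/-- Frobenius elements form a coset of inertia. -/
theorem lq_isFrob_iff_of_isFrob {L : LqField q} {c : ℕ} {φ₀ φ : ↥L ≃ₐ[ℚ_[q]] ↥L}
    (h₀ : lq_IsFrob L c φ₀) : lq_IsFrob L c φ ↔
      ((φ : ↥L ≃ₐ[ℚ_[q]] ↥L) : (↥L ≃ₐ[ℚ_[q]] ↥L) ⧸ lq_inertia L) =
        ((φ₀ : ↥L ≃ₐ[ℚ_[q]] ↥L) : (↥L ≃ₐ[ℚ_[q]] ↥L) ⧸ lq_inertia L) := by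
  constructor
  · intro h
    exact (QuotientGroup.eq.2 (lq_isFrob_unique h₀ h)).symm
  · intro h
    have hmem : φ₀⁻¹ * φ ∈ lq_inertia L := QuotientGroup.eq.1 h.symm
    have e : φ = φ₀ * (φ₀⁻¹ * φ) := by group
    rw [e]
    exact lq_isFrob_mul_inertia h₀ hmem

/-- `[G : H I] * [H : H ∩ I] = [G : I]` (abstract group theory). -/
theorem lq_resDeg_mul_relIndex {G : Type*} [Group G] [Finite G] (I : Subgroup G) [I.Normal]
    (H : Subgroup G) : lc_resDeg I H.subtype * I.relIndex H = I.index := by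
  rw [lc_resDeg, ← lc_quotMap_range, Subgroup.index_eq_card I,
    ← Subgroup.card_mul_index (lc_quotMap I H.subtype).range, mul_comm]
  congr 1
  rw [Subgroup.relIndex, Subgroup.index_eq_card]
  exact Nat.card_congr (MonoidHom.ofInjective (lc_quotMap_injective I H.subtype)).toEquiv

section

variable {L : LqField q} [FiniteDimensional ℚ_[q] ↥L] [IsGalois ℚ_[q] ↥L]

/-- **(F4)** `|κ(L^H)| = q ^ [G : H I]`. -/
theorem lq_resCard_fixed_eq (H : Subgroup (↥L ≃ₐ[ℚ_[q]] ↥L)) :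
    lq_resCard (lq_fixed H) = q ^ lc_resDeg (lq_inertia L) H.subtype := by
  have hq : 1 < q := (Fact.out : q.Prime).one_lt
  have h1 : lq_resCard (lq_fixed H) ^ (lq_inertia L).relIndex H = lq_resCard L :=
    lq_resCard_fixed_pow H
  rw [lq_resCard_eq_pow_index L, lq_resCard_eq (K := lq_fixed H), ← pow_mul,
    ← lq_resDeg_mul_relIndex (lq_inertia L) H] at h1
  have h2 := Nat.pow_right_injective hq h1
  have hpos : 0 < (lq_inertia L).relIndex H := by
    have : (lq_inertia L).relIndex H ≠ 0 := Subgroup.index_ne_zero_of_finite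
    omega
  rw [lq_resCard_eq (K := lq_fixed H), Nat.eq_of_mul_eq_mul_right hpos h2]

/-- The `lc_resDeg`-th power of the Frobenius element of the formation is an arithmetic
Frobenius of the layer `H`. -/
theorem lq_isFrob_formation_pow (H : Subgroup (↥L ≃ₐ[ℚ_[q]] ↥L)) :
    lq_IsFrob L (lq_resCard (lq_fixed H))
      ((lq_formation L).frob ^ lc_resDeg (lq_inertia L) H.subtype) := by
  rw [lq_resCard_fixed_eq H]
  exact lq_isFrob_pow (lq_formation_isFrob L) _

/-- **(F5)** `φ` is an arithmetic Frobenius of the layer `H` iff its class modulo inertia is the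
`lc_resDeg`-th power of the class of the Frobenius element of the formation. -/
theorem lq_isFrob_iff_frobSub (H : Subgroup (↥L ≃ₐ[ℚ_[q]] ↥L)) (φ : ↥L ≃ₐ[ℚ_[q]] ↥L) :
    lq_IsFrob L (lq_resCard (lq_fixed H)) φ ↔
      ((φ : ↥L ≃ₐ[ℚ_[q]] ↥L) : (↥L ≃ₐ[ℚ_[q]] ↥L) ⧸ lq_inertia L) =
        (((lq_formation L).frob : ↥L ≃ₐ[ℚ_[q]] ↥L) : (↥L ≃ₐ[ℚ_[q]] ↥L) ⧸ lq_inertia L) ^
          lc_resDeg (lq_inertia L) H.subtype := by
  rw [lq_isFrob_iff_of_isFrob (lq_isFrob_formation_pow H), QuotientGroup.mk_pow]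

/-- The Frobenius element `frobSub` of the layer `H` in the formation of `L` is the arithmetic
one. -/
theorem lq_isFrob_frobSub (H : Subgroup (↥L ≃ₐ[ℚ_[q]] ↥L)) :
    lq_IsFrob L (lq_resCard (lq_fixed H))
      (((lq_formation L).frobSub H.subtype : ↥H) : ↥L ≃ₐ[ℚ_[q]] ↥L) :=
  (lq_isFrob_iff_frobSub H _).2 ((lq_formation L).frobSub_spec H.subtype)

end

end Fermat.Agent.S55
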