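import Fermat.Agent.S55.LocalQ.Integers

/-!
# S55 / local block, concrete side: residue Galois group, Frobenius, inertia

`L : LqField q` finite over `ℚ_[q]`, `H` a subgroup of `L ≃ₐ[ℚ_[q]] L`, `K = lq_fixed H`.
-/

set_option autoImplicit false

open scoped Valued NormedField NNReal Pointwise

namespace Fermat.Agent.S55

variable {q : ℕ} [Fact q.Prime]

theorem lq_frob_abstract {k l G : Type*} [Field k] [Fintype k] [Field l] [Algebra k l] [Finite l]
    [Group G] (ρ : G →* (l ≃ₐ[k] l)) (hρ : Function.Surjective ρ) :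
    ∃ φ : G, (∀ y : l, ρ φ y = y ^ Fintype.card k) ∧
      ∀ τ : G, ∃ n : ℕ, ∀ y : l, ρ τ y = y ^ (Fintype.card k ^ n) := by
  obtain ⟨φ, hφ⟩ := hρ (FiniteField.frobeniusAlgEquivOfAlgebraic k l)
  refine ⟨φ, fun y => ?_, fun τ => ?_⟩
  · rw [hφ, FiniteField.coe_frobeniusAlgEquivOfAlgebraic]
  · obtain ⟨n, hn⟩ := (FiniteField.bijective_frobeniusAlgEquivOfAlgebraic_pow k l).2 (ρ τ)
    refine ⟨n.1, fun y => ?_⟩
    have h1 : ρ τ = FiniteField.frobeniusAlgEquivOfAlgebraic k l ^ n.1 := hn.symm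
    rw [h1, AlgEquiv.coe_pow, FiniteField.coe_frobeniusAlgEquivOfAlgebraic_iterate]

noncomputable section

variable {L : LqField q} (H : Subgroup (L ≃ₐ[ℚ_[q]] L))

/-- `𝒪[L]` as an algebra over the integers of the fixed field of `H`. -/
instance lq_algFixed : Algebra 𝒪[lq_fixed H] 𝒪[L] := (lq_intIncl (lq_fixed_le H)).toAlgebra

theorem lq_algFixed_coe (a : 𝒪[lq_fixed H]) :
    (((algebraMap 𝒪[lq_fixed H] 𝒪[L] a : 𝒪[L]) : L) : PadicAlgCl q) = ((a : lq_fixed H) : PadicAlgCl q) :=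
  rfl

theorem lq_smul_algebraMap_fixed (h : H) (a : 𝒪[lq_fixed H]) :
    h • (algebraMap 𝒪[lq_fixed H] 𝒪[L] a) = algebraMap 𝒪[lq_fixed H] 𝒪[L] a := by
  apply Subtype.ext
  have hmem : (((algebraMap 𝒪[lq_fixed H] 𝒪[L] a : 𝒪[L]) : L) : PadicAlgCl q) ∈ lq_fixed H := by
    rw [lq_algFixed_coe]; exact (a : lq_fixed H).2
  exact (lq_mem_fixed_iff H _).mp hmem h.1 h.2

instance lq_smulComm_fixed : SMulCommClass H 𝒪[lq_fixed H] 𝒪[L] where
  smul_comm h a b := by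
    rw [Algebra.smul_def, Algebra.smul_def, smul_mul', lq_smul_algebraMap_fixed]

instance lq_isInvariant_fixed : Algebra.IsInvariant 𝒪[lq_fixed H] 𝒪[L] H where
  isInvariant b hb := by
    have hmem : ((b : L) : PadicAlgCl q) ∈ lq_fixed H := by
      rw [lq_mem_fixed_iff]
      intro σ hσ
      have := congrArg (fun z : 𝒪[L] => (z : L)) (hb ⟨σ, hσ⟩)
      exact this
    refine ⟨⟨⟨((b : L) : PadicAlgCl q), hmem⟩, ?_⟩, ?_⟩
    · rw [lq_mem_integer_iff]
      exact (lq_mem_integer_iff L (b : L)).mp b.2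
    · apply Subtype.ext
      apply Subtype.ext
      rfl

variable [FiniteDimensional ℚ_[q] L]

theorem lq_algebraMap_fixed_mem_maximalIdeal_iff (a : 𝒪[lq_fixed H]) :
    algebraMap 𝒪[lq_fixed H] 𝒪[L] a ∈ IsLocalRing.maximalIdeal 𝒪[L] ↔
      a ∈ IsLocalRing.maximalIdeal 𝒪[lq_fixed H] := by
  rw [lq_mem_maximalIdeal_iff, lq_mem_maximalIdeal_iff]
  rfl

instance lq_liesOver_fixed :
    (IsLocalRing.maximalIdeal 𝒪[L]).LiesOver (IsLocalRing.maximalIdeal 𝒪[lq_fixed H]) := by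
  rw [Ideal.liesOver_iff, Ideal.under_def]
  ext a
  rw [Ideal.mem_comap, lq_algebraMap_fixed_mem_maximalIdeal_iff]

/-- Shortcut instance (the generic search is very slow). -/
local instance lq_subIdealAction : MulAction H (Ideal 𝒪[L]) :=
  Ideal.pointwiseDistribMulAction.toMulAction

/-- Shortcut instance (the generic search is very slow). -/
local instance lq_idealAction : MulAction (L ≃ₐ[ℚ_[q]] L) (Ideal 𝒪[L]) :=
  Ideal.pointwiseDistribMulAction.toMulAction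

theorem lq_smul_maximalIdeal (σ : L ≃ₐ[ℚ_[q]] L) :
    σ • IsLocalRing.maximalIdeal 𝒪[L] = IsLocalRing.maximalIdeal 𝒪[L] := by
  ext x
  rw [Ideal.mem_pointwise_smul_iff_inv_smul_mem, lq_mem_maximalIdeal_iff, lq_mem_maximalIdeal_iff,
    lq_smul_coe, lq_norm_algEquiv]

theorem lq_stabilizer_eq_top :
    MulAction.stabilizer H (IsLocalRing.maximalIdeal 𝒪[L]) = ⊤ := by
  ext h
  simp only [MulAction.mem_stabilizer_iff, Subgroup.mem_top, iff_true]
  exact lq_smul_maximalIdeal h.1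

/-- `H` maps to the stabiliser of the maximal ideal (which is everything). -/
def lq_toStab : H →* MulAction.stabilizer H (IsLocalRing.maximalIdeal 𝒪[L]) where
  toFun h := ⟨h, by rw [lq_stabilizer_eq_top]; exact Subgroup.mem_top h⟩
  map_one' := rfl
  map_mul' _ _ := rfl

theorem lq_toStab_surjective : Function.Surjective (lq_toStab H) :=
  fun h => ⟨h.1, rfl⟩

/-- The action of `H` on the residue field of `L`, as automorphisms over the residue field of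
the fixed field. -/
def lq_redHom : H →* ((𝒪[L] ⧸ IsLocalRing.maximalIdeal 𝒪[L]) ≃ₐ[𝒪[lq_fixed H] ⧸
    IsLocalRing.maximalIdeal 𝒪[lq_fixed H]] (𝒪[L] ⧸ IsLocalRing.maximalIdeal 𝒪[L])) :=
  (Ideal.Quotient.stabilizerHom (IsLocalRing.maximalIdeal 𝒪[L])
    (IsLocalRing.maximalIdeal 𝒪[lq_fixed H]) H).comp (lq_toStab H)

theorem lq_redHom_apply (h : H) (b : 𝒪[L]) :
    lq_redHom H h (Ideal.Quotient.mk _ b) = Ideal.Quotient.mk _ (h • b) := rfl

theorem lq_redHom_surjective : Function.Surjective (lq_redHom H) := by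
  have h1 := Ideal.Quotient.stabilizerHom_surjective H (IsLocalRing.maximalIdeal 𝒪[lq_fixed H])
    (IsLocalRing.maximalIdeal 𝒪[L])
  exact h1.comp (lq_toStab_surjective H)

theorem lq_mem_ker_redHom_iff (h : H) :
    h ∈ (lq_redHom H).ker ↔ (h : L ≃ₐ[ℚ_[q]] L) ∈ lq_inertia L := by
  rw [MonoidHom.mem_ker, lq_mem_inertia_iff]
  constructor
  · intro hh x hx
    have hx' : x ∈ 𝒪[L] := (lq_mem_integer_iff L x).mpr hx
    have h1 := congrArg (fun f => f (Ideal.Quotient.mk _ (⟨x, hx'⟩ : 𝒪[L]))) hh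
    simp only [lq_redHom_apply, AlgEquiv.one_apply] at h1
    rw [Ideal.Quotient.eq, lq_mem_maximalIdeal_iff] at h1
    exact h1
  · intro hh
    ext b
    obtain ⟨b, rfl⟩ := Ideal.Quotient.mk_surjective b
    rw [lq_redHom_apply, AlgEquiv.one_apply, Ideal.Quotient.eq, lq_mem_maximalIdeal_iff]
    exact hh (b : L) ((lq_mem_integer_iff L _).mp b.2)

/-! ### The residue fields as finite fields -/

/-- Field structure on the residue ring of the fixed field (local to this file). -/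
local instance lq_fieldResFixed :
    Field (𝒪[lq_fixed H] ⧸ IsLocalRing.maximalIdeal 𝒪[lq_fixed H]) := Ideal.Quotient.field _

/-- Field structure on the residue ring of `L` (local to this file). -/
local instance lq_fieldRes : Field (𝒪[L] ⧸ IsLocalRing.maximalIdeal 𝒪[L]) :=
  Ideal.Quotient.field _

local instance lq_finiteRes : Finite (𝒪[L] ⧸ IsLocalRing.maximalIdeal 𝒪[L]) :=
  inferInstanceAs (Finite 𝓀[L])

local instance lq_finiteResFixed :
    Finite (𝒪[lq_fixed H] ⧸ IsLocalRing.maximalIdeal 𝒪[lq_fixed H]) :=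
  inferInstanceAs (Finite 𝓀[lq_fixed H])

local instance lq_fintypeResFixed :
    Fintype (𝒪[lq_fixed H] ⧸ IsLocalRing.maximalIdeal 𝒪[lq_fixed H]) := Fintype.ofFinite _

/-- Shortcut instance. -/
local instance lq_algRes :
    Algebra (𝒪[lq_fixed H] ⧸ IsLocalRing.maximalIdeal 𝒪[lq_fixed H])
      (𝒪[L] ⧸ IsLocalRing.maximalIdeal 𝒪[L]) :=
  Ideal.Quotient.algebraOfLiesOver (IsLocalRing.maximalIdeal 𝒪[L])
    (IsLocalRing.maximalIdeal 𝒪[lq_fixed H])

/-- Shortcut instance. -/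
local instance lq_modRes :
    Module (𝒪[lq_fixed H] ⧸ IsLocalRing.maximalIdeal 𝒪[lq_fixed H])
      (𝒪[L] ⧸ IsLocalRing.maximalIdeal 𝒪[L]) := Algebra.toModule

theorem lq_card_resFixed :
    Fintype.card (𝒪[lq_fixed H] ⧸ IsLocalRing.maximalIdeal 𝒪[lq_fixed H]) =
      lq_resCard (lq_fixed H) := by
  rw [← Nat.card_eq_fintype_card]
  rfl

/-- The residue degree of `L` over the fixed field of `H`. -/
def lq_fRel : ℕ := Module.finrank (𝒪[lq_fixed H] ⧸ IsLocalRing.maximalIdeal 𝒪[lq_fixed H])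
  (𝒪[L] ⧸ IsLocalRing.maximalIdeal 𝒪[L])

theorem lq_resCard_eq_pow_fRel : lq_resCard L = lq_resCard (lq_fixed H) ^ lq_fRel H := by
  have h := Module.natCard_eq_pow_finrank
    (K := 𝒪[lq_fixed H] ⧸ IsLocalRing.maximalIdeal 𝒪[lq_fixed H])
    (V := 𝒪[L] ⧸ IsLocalRing.maximalIdeal 𝒪[L])
  exact h

theorem lq_card_resGal :
    Nat.card ((𝒪[L] ⧸ IsLocalRing.maximalIdeal 𝒪[L]) ≃ₐ[𝒪[lq_fixed H] ⧸
      IsLocalRing.maximalIdeal 𝒪[lq_fixed H]] (𝒪[L] ⧸ IsLocalRing.maximalIdeal 𝒪[L])) =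
      lq_fRel H := by
  have h := Nat.card_eq_of_bijective _ (FiniteField.bijective_frobeniusAlgEquivOfAlgebraic_pow
    (𝒪[lq_fixed H] ⧸ IsLocalRing.maximalIdeal 𝒪[lq_fixed H])
    (𝒪[L] ⧸ IsLocalRing.maximalIdeal 𝒪[L]))
  rw [← h, Nat.card_eq_fintype_card, Fintype.card_fin]
  rfl

theorem lq_ker_redHom : (lq_redHom H).ker = (lq_inertia L).subgroupOf H := by
  ext h
  rw [lq_mem_ker_redHom_iff, Subgroup.mem_subgroupOf]

/-- `[H : I ∩ H] = f(L / L^H)`. -/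
theorem lq_relIndex_inertia : (lq_inertia L).relIndex H = lq_fRel H := by
  rw [Subgroup.relIndex, ← lq_ker_redHom, Subgroup.index_ker,
    MonoidHom.range_eq_top.mpr (lq_redHom_surjective H), Subgroup.card_top, lq_card_resGal]

/-- **(LQ1)** `|𝓀[L^H]| ^ [H : I ∩ H] = |𝓀[L]|`. -/
theorem lq_resCard_fixed_pow :
    lq_resCard (lq_fixed H) ^ (lq_inertia L).relIndex H = lq_resCard L := by
  rw [lq_relIndex_inertia, ← lq_resCard_eq_pow_fRel]

/-- The residue action: a Frobenius element, and every element of `H` acts as a power of it. -/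
theorem lq_exists_frob_res :
    ∃ φ : H, (∀ b : 𝒪[L], Ideal.Quotient.mk (IsLocalRing.maximalIdeal 𝒪[L]) (φ • b) =
        (Ideal.Quotient.mk (IsLocalRing.maximalIdeal 𝒪[L]) b) ^ lq_resCard (lq_fixed H)) ∧
      ∀ τ : H, ∃ n : ℕ, ∀ b : 𝒪[L], Ideal.Quotient.mk (IsLocalRing.maximalIdeal 𝒪[L]) (τ • b) =
        (Ideal.Quotient.mk (IsLocalRing.maximalIdeal 𝒪[L]) b) ^ (lq_resCard (lq_fixed H) ^ n) := by
  obtain ⟨φ, h1, h2⟩ := lq_frob_abstract (lq_redHom H) (lq_redHom_surjective H)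
  rw [lq_card_resFixed] at h1 h2
  refine ⟨φ, fun b => h1 (Ideal.Quotient.mk _ b), fun τ => ?_⟩
  obtain ⟨n, hn⟩ := h2 τ
  exact ⟨n, fun b => hn (Ideal.Quotient.mk _ b)⟩

theorem lq_sub_mem_maximalIdeal_iff_norm (a b : 𝒪[L]) :
    Ideal.Quotient.mk (IsLocalRing.maximalIdeal 𝒪[L]) a =
      Ideal.Quotient.mk (IsLocalRing.maximalIdeal 𝒪[L]) b ↔ ‖(a : L) - (b : L)‖ < 1 := by
  rw [Ideal.Quotient.eq, lq_mem_maximalIdeal_iff]
  rfl

/-- **(LQ2)** Frobenius: `H / (I ∩ H)` is cyclic, generated by an element acting as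
`x ↦ x ^ |𝓀[L^H]|` on the residue field. -/
theorem lq_exists_frob :
    ∃ φ ∈ H, (∀ x : L, ‖x‖ ≤ 1 → ‖φ x - x ^ lq_resCard (lq_fixed H)‖ < 1) ∧
      ∀ τ ∈ H, ∃ k : ℕ, τ⁻¹ * φ ^ k ∈ lq_inertia L := by
  obtain ⟨φ, h1, h2⟩ := lq_exists_frob_res H
  have hpow : ∀ (n : ℕ) (b : 𝒪[L]),
      Ideal.Quotient.mk (IsLocalRing.maximalIdeal 𝒪[L]) ((φ ^ n) • b) =
        (Ideal.Quotient.mk (IsLocalRing.maximalIdeal 𝒪[L]) b) ^ (lq_resCard (lq_fixed H) ^ n) := by
    intro n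
    induction n with
    | zero => intro b; simp
    | succ n ih =>
      intro b
      rw [pow_succ', mul_smul, h1, ih, ← pow_mul, pow_succ]
  refine ⟨φ.1, φ.2, ?_, ?_⟩
  · intro x hx
    have hx' : x ∈ 𝒪[L] := (lq_mem_integer_iff L x).mpr hx
    have h3 := h1 ⟨x, hx'⟩
    rw [← map_pow, lq_sub_mem_maximalIdeal_iff_norm] at h3
    exact h3
  · intro τ hτ
    obtain ⟨n, hn⟩ := h2 ⟨τ, hτ⟩
    refine ⟨n, ?_⟩
    rw [lq_mem_inertia_iff]
    intro x hx
    have hx' : x ∈ 𝒪[L] := (lq_mem_integer_iff L x).mpr hx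
    have h3 : Ideal.Quotient.mk (IsLocalRing.maximalIdeal 𝒪[L]) ((φ ^ n) • (⟨x, hx'⟩ : 𝒪[L])) =
        Ideal.Quotient.mk (IsLocalRing.maximalIdeal 𝒪[L]) ((⟨τ, hτ⟩ : H) • (⟨x, hx'⟩ : 𝒪[L])) := by
      rw [hpow, hn]
    rw [lq_sub_mem_maximalIdeal_iff_norm] at h3
    have h4 : (τ⁻¹ * (φ : L ≃ₐ[ℚ_[q]] L) ^ n) x - x =
        τ⁻¹ ((((φ : L ≃ₐ[ℚ_[q]] L) ^ n) x) - τ x) := by
      rw [map_sub]
      have : τ⁻¹ (τ x) = x := by
        change (τ⁻¹ * τ) x = x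
        rw [inv_mul_cancel]; rfl
      rw [this]; rfl
    rw [h4, lq_norm_algEquiv]
    exact h3

end

end Fermat.Agent.S55
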