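import Fermat.Agent.S55.LocalQ.Defs

/-!
# S55 / local block, concrete side: `𝒪[K]` as a `ℤ_[q]`-algebra, `e · f = n`
-/

set_option autoImplicit false

open scoped Valued NormedField NNReal

namespace Fermat.Agent.S55

variable {q : ℕ} [Fact q.Prime]

noncomputable section

variable (K : LqField q)

theorem lq_norm_algebraMap (x : ℚ_[q]) : ‖algebraMap ℚ_[q] K x‖ = ‖x‖ := by
  rw [← lq_norm_coe]
  exact norm_algebraMap' (PadicAlgCl q) x

/-- The structure map `ℤ_[q] → 𝒪[K]`. -/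
def lq_padicIntHom : ℤ_[q] →+* 𝒪[K] where
  toFun x := ⟨algebraMap ℚ_[q] K (x : ℚ_[q]), (lq_mem_integer_iff K _).mpr
    (by rw [lq_norm_algebraMap]; exact x.2)⟩
  map_one' := Subtype.ext (by simp)
  map_mul' x y := Subtype.ext (by simp)
  map_zero' := Subtype.ext (by simp)
  map_add' x y := Subtype.ext (by simp)

instance lq_algPadicInt : Algebra ℤ_[q] 𝒪[K] := (lq_padicIntHom K).toAlgebra

instance lq_algPadicIntField : Algebra ℤ_[q] K :=
  ((algebraMap ℚ_[q] K).comp (algebraMap ℤ_[q] ℚ_[q])).toAlgebra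

theorem lq_algebraMap_padicInt_coe (x : ℤ_[q]) :
    ((algebraMap ℤ_[q] 𝒪[K] x : 𝒪[K]) : K) = algebraMap ℚ_[q] K (x : ℚ_[q]) := rfl

instance lq_tower_padicInt_field : IsScalarTower ℤ_[q] ℚ_[q] K :=
  IsScalarTower.of_algebraMap_eq (fun _ => rfl)

instance lq_tower_padicInt_int : IsScalarTower ℤ_[q] 𝒪[K] K :=
  IsScalarTower.of_algebraMap_eq (fun _ => rfl)

instance lq_faithful_padicInt_field : FaithfulSMul ℤ_[q] K :=
  (faithfulSMul_iff_algebraMap_injective ℤ_[q] K).mpr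
    ((algebraMap ℚ_[q] K).injective.comp (IsFractionRing.injective ℤ_[q] ℚ_[q]))

theorem lq_isIntegral_of_norm_le_one {x : K} (hx : ‖x‖ ≤ 1) : IsIntegral ℤ_[q] x := by
  have hint : IsIntegral ℚ_[q] x := Algebra.IsIntegral.isIntegral x
  have hmonic := minpoly.monic hint
  have hcoeff : ∀ n : ℕ, ‖(minpoly ℚ_[q] x).coeff n‖ ≤ 1 := by
    rw [← spectralValue_le_one_iff hmonic, ← lq_norm_eq_spectralValue]
    exact hx
  have hlift : minpoly ℚ_[q] x ∈ Polynomial.lifts (algebraMap ℤ_[q] ℚ_[q]) := by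
    rw [Polynomial.lifts_iff_coeff_lifts]
    intro n
    exact ⟨⟨_, hcoeff n⟩, rfl⟩
  obtain ⟨P, hP, -, hPm⟩ := Polynomial.lifts_and_natDegree_eq_and_monic hlift hmonic
  refine ⟨P, hPm, ?_⟩
  have h0 := minpoly.aeval ℚ_[q] x
  rw [← hP, Polynomial.aeval_def, Polynomial.eval₂_map] at h0
  exact h0

variable [FiniteDimensional ℚ_[q] K]

omit [FiniteDimensional ℚ_[q] K] in
theorem lq_norm_le_one_of_isIntegral {x : K} (hx : IsIntegral ℤ_[q] x) : ‖x‖ ≤ 1 := by
  have h1 : IsIntegral 𝒪[K] x := hx.tower_top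
  have h2 := Valuation.Integers.mem_of_integral (Valuation.integer.integers (Valued.v : Valuation K ℝ≥0)) h1
  exact (lq_mem_integer_iff K x).mp h2

instance lq_isIntegralClosure : IsIntegralClosure 𝒪[K] ℤ_[q] K :=
  IsIntegralClosure.mk Subtype.val_injective (by
    intro x
    constructor
    · intro hx
      exact ⟨⟨x, (lq_mem_integer_iff K x).mpr (lq_norm_le_one_of_isIntegral K hx)⟩, rfl⟩
    · rintro ⟨y, rfl⟩
      exact lq_isIntegral_of_norm_le_one K ((lq_mem_integer_iff K _).mp y.2))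

instance lq_finite_padicInt : Module.Finite ℤ_[q] 𝒪[K] :=
  IsIntegralClosure.finite ℤ_[q] ℚ_[q] K 𝒪[K]

theorem lq_finrank_padicInt : Module.finrank ℤ_[q] 𝒪[K] = Module.finrank ℚ_[q] K :=
  IsIntegralClosure.rank ℤ_[q] ℚ_[q] K 𝒪[K]

instance lq_free_padicInt : Module.Free ℤ_[q] 𝒪[K] :=
  IsIntegralClosure.module_free ℤ_[q] ℚ_[q] K 𝒪[K]

/-! ### `e · f = n` -/

/-- The absolute ramification index `ord_K(q)`. -/
def lq_eAbs : ℕ := (lq_ordZ K (q : K)).toNat

/-- The absolute residue degree. -/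
def lq_fAbs : ℕ := Nat.log q (lq_resCard K)

instance lq_maximal_liesOver :
    (IsLocalRing.maximalIdeal 𝒪[K]).LiesOver (IsLocalRing.maximalIdeal ℤ_[q]) := by
  rw [Ideal.liesOver_iff, Ideal.under_def]
  have : Algebra.IsIntegral ℤ_[q] 𝒪[K] := IsIntegralClosure.isIntegral_algebra ℤ_[q] K
  have hmax := Ideal.isMaximal_comap_of_isIntegral_of_isMaximal (R := ℤ_[q])
    (IsLocalRing.maximalIdeal 𝒪[K])
  exact (IsLocalRing.eq_maximalIdeal hmax).symm

theorem lq_primesOver_eq :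
    (IsLocalRing.maximalIdeal ℤ_[q]).primesOver 𝒪[K] = {IsLocalRing.maximalIdeal 𝒪[K]} := by
  ext P
  simp only [Set.mem_singleton_iff]
  constructor
  · rintro ⟨hP, hPo⟩
    have hne : P ≠ ⊥ := by
      rintro rfl
      have h1 : IsLocalRing.maximalIdeal ℤ_[q] = ⊥ := by
        rw [(Ideal.liesOver_iff _ _).mp hPo, Ideal.under_def]
        exact Ideal.comap_bot_of_injective _ (FaithfulSMul.algebraMap_injective ℤ_[q] 𝒪[K])
      exact (IsDiscreteValuationRing.not_a_field ℤ_[q]) h1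
    exact IsLocalRing.eq_maximalIdeal (hP.isMaximal hne)
  · rintro rfl
    exact ⟨inferInstance, inferInstance⟩

omit [FiniteDimensional ℚ_[q] K] in
theorem lq_cardQuot_padicInt :
    Submodule.cardQuot (IsLocalRing.maximalIdeal ℤ_[q]) = q := by
  rw [Submodule.cardQuot_apply]
  have e : (ℤ_[q] ⧸ IsLocalRing.maximalIdeal ℤ_[q]) ≃ ZMod q := PadicInt.residueField.toEquiv
  rw [Nat.card_congr e, Nat.card_zmod]

theorem lq_resCard_eq_pow_inertiaDeg :
    lq_resCard K = q ^ (IsLocalRing.maximalIdeal 𝒪[K]).inertiaDeg ℤ_[q] := by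
  have h := Ideal.cardQuot_pow_inertiaDeg (IsLocalRing.maximalIdeal ℤ_[q])
    (IsLocalRing.maximalIdeal 𝒪[K])
  rw [lq_cardQuot_padicInt, Submodule.cardQuot_apply] at h
  rw [h]
  rfl

theorem lq_fAbs_eq : lq_fAbs K = (IsLocalRing.maximalIdeal 𝒪[K]).inertiaDeg ℤ_[q] := by
  rw [lq_fAbs, lq_resCard_eq_pow_inertiaDeg, Nat.log_pow (Fact.out : q.Prime).one_lt]

theorem lq_resCard_eq : lq_resCard K = q ^ lq_fAbs K := by
  rw [lq_fAbs_eq, ← lq_resCard_eq_pow_inertiaDeg]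

omit [FiniteDimensional ℚ_[q] K] in
theorem lq_natCast_ne_zero : ((q : ℕ) : K) ≠ 0 := by
  have : (q : ℕ) ≠ 0 := (Fact.out : q.Prime).ne_zero
  exact_mod_cast this

theorem lq_ordZ_natCast_nonneg : 0 ≤ lq_ordZ K ((q : ℕ) : K) := by
  rw [lq_ordZ_nonneg_iff K (lq_natCast_ne_zero K)]
  have h : ((q : ℕ) : K) = algebraMap ℚ_[q] K ((q : ℕ) : ℚ_[q]) := by simp
  rw [h, lq_norm_algebraMap]
  exact Padic.norm_p_lt_one.le

theorem lq_eAbs_cast : ((lq_eAbs K : ℕ) : ℤ) = lq_ordZ K ((q : ℕ) : K) :=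
  Int.toNat_of_nonneg (lq_ordZ_natCast_nonneg K)

theorem lq_map_maximalIdeal_padicInt :
    Ideal.map (algebraMap ℤ_[q] 𝒪[K]) (IsLocalRing.maximalIdeal ℤ_[q]) =
      IsLocalRing.maximalIdeal 𝒪[K] ^ lq_eAbs K := by
  rw [PadicInt.maximalIdeal_eq_span_p, Ideal.map_span, Set.image_singleton,
    (lq_unif_irreducible K).maximalIdeal_eq, Ideal.span_singleton_pow]
  have hq0 : (algebraMap ℤ_[q] 𝒪[K] (q : ℤ_[q])) ≠ 0 := by
    intro h
    have := congrArg (fun z : 𝒪[K] => (z : K)) h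
    simp only [lq_algebraMap_padicInt_coe] at this
    apply lq_natCast_ne_zero K
    simpa using this
  obtain ⟨n, u, hu⟩ :=
    IsDiscreteValuationRing.eq_unit_mul_pow_irreducible hq0 (lq_unif_irreducible K)
  have hn : n = lq_eAbs K := by
    have h1 := congrArg (fun y : 𝒪[K] => ‖(y : K)‖) hu
    simp only [Subring.coe_mul, SubmonoidClass.coe_pow, norm_mul, norm_pow, lq_norm_unit,
      one_mul] at h1
    have h2 : lq_ordZ K ((q : ℕ) : K) = (n : ℤ) := by
      apply lq_ordZ_eq_of_norm_eq K (lq_natCast_ne_zero K)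
      rw [zpow_natCast, ← h1, lq_algebraMap_padicInt_coe]
      simp
    have h3 := lq_eAbs_cast K
    rw [h2] at h3
    exact_mod_cast h3.symm
  rw [← hn, hu]
  exact (Ideal.span_singleton_eq_span_singleton.mpr
    ⟨u, by rw [mul_comm]⟩).symm

theorem lq_eAbs_pos : 0 < lq_eAbs K := by
  by_contra h
  have h0 : lq_eAbs K = 0 := by omega
  have h1 := lq_map_maximalIdeal_padicInt K
  rw [h0, pow_zero, Ideal.one_eq_top] at h1
  have h2 : Ideal.map (algebraMap ℤ_[q] 𝒪[K]) (IsLocalRing.maximalIdeal ℤ_[q]) ≤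
      IsLocalRing.maximalIdeal 𝒪[K] := by
    rw [Ideal.map_le_iff_le_comap, ← Ideal.under_def]
    exact (Ideal.over_def (IsLocalRing.maximalIdeal 𝒪[K]) (IsLocalRing.maximalIdeal ℤ_[q])).le
  rw [h1] at h2
  exact (IsLocalRing.maximalIdeal.isMaximal 𝒪[K]).ne_top (top_le_iff.mp h2)

theorem lq_ramificationIdx_eq :
    (IsLocalRing.maximalIdeal 𝒪[K]).ramificationIdx ℤ_[q] = lq_eAbs K := by
  have hne : Ideal.map (algebraMap ℤ_[q] 𝒪[K]) (IsLocalRing.maximalIdeal ℤ_[q]) ≠ ⊥ := by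
    rw [lq_map_maximalIdeal_padicInt]
    exact pow_ne_zero _ (IsDiscreteValuationRing.not_a_field 𝒪[K])
  rw [Ideal.IsDedekindDomain.ramificationIdx_eq_multiplicity (IsLocalRing.maximalIdeal ℤ_[q])
    (IsLocalRing.maximalIdeal 𝒪[K]) hne, lq_map_maximalIdeal_padicInt]
  apply multiplicity_pow_self (IsDiscreteValuationRing.not_a_field 𝒪[K])
  rw [Ideal.isUnit_iff]
  exact (IsLocalRing.maximalIdeal.isMaximal 𝒪[K]).ne_top

/-- **`e · f = n`** for a finite extension `K` of `ℚ_[q]`. -/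
theorem lq_e_mul_f : lq_eAbs K * lq_fAbs K = Module.finrank ℚ_[q] K := by
  classical
  let _ : Unique ((IsLocalRing.maximalIdeal ℤ_[q]).primesOver 𝒪[K]) :=
    { default := ⟨IsLocalRing.maximalIdeal 𝒪[K], by rw [lq_primesOver_eq]; rfl⟩
      uniq := fun P => Subtype.ext (by
        have h1 : (P : Ideal 𝒪[K]) ∈ (IsLocalRing.maximalIdeal ℤ_[q]).primesOver 𝒪[K] := P.2
        have h2 : (P : Ideal 𝒪[K]) ∈ ({IsLocalRing.maximalIdeal 𝒪[K]} : Set (Ideal 𝒪[K])) :=
          (lq_primesOver_eq K) ▸ h1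
        exact h2) }
  let _ : Fintype ((IsLocalRing.maximalIdeal ℤ_[q]).primesOver 𝒪[K]) := Unique.fintype
  have h := Ideal.sum_ramification_inertia_eq_finrank (IsLocalRing.maximalIdeal ℤ_[q]) 𝒪[K]
  rw [Fintype.sum_unique, lq_finrank_padicInt] at h
  rw [← h, lq_fAbs_eq, ← lq_ramificationIdx_eq]
  rfl

end

end Fermat.Agent.S55
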