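import Fermat.Agent.S55.LocalQ.Tower

/-!
# S55 / local block, concrete side (LQ5), part 2: valuations and inertia in towers

The two remaining items of (LQ5): `lq_ordZ_inclusion` and surjectivity of restriction on inertia,
derived from (LQ3) (`v_L((L^H)ˣ) = |I ⊓ H| ℤ`), which is taken here as the hypothesis package
`lq_ValGroup L H`.
-/

set_option autoImplicit false

open scoped Valued NormedField NNReal

namespace Fermat.Agent.S55

variable {q : ℕ} [Fact q.Prime]

noncomputable section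

/-- (LQ3) for the pair `(L, H)`: the valuations of the nonzero `H`-fixed elements of `L` are
exactly the multiples of `|I ⊓ H|`. -/
structure lq_ValGroup (L : LqField q) [FiniteDimensional ℚ_[q] L]
    (H : Subgroup (L ≃ₐ[ℚ_[q]] L)) : Prop where
  dvd : ∀ x : L, x ≠ 0 → (∀ σ ∈ H, σ x = x) →
    ((Nat.card ↥(lq_inertia L ⊓ H) : ℕ) : ℤ) ∣ lq_ordZ L x
  ex : ∃ x : L, x ≠ 0 ∧ (∀ σ ∈ H, σ x = x) ∧
    lq_ordZ L x = ((Nat.card ↥(lq_inertia L ⊓ H) : ℕ) : ℤ)

variable {K L : LqField q} [FiniteDimensional ℚ_[q] K] [FiniteDimensional ℚ_[q] L]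

/-- The valuation of `L` restricted to a subfield `K` is a multiple of the valuation of `K`. -/
theorem lq_ordZ_inclusion_eq_mul (h : K ≤ L) (x : K) :
    lq_ordZ L (IntermediateField.inclusion h x) =
      lq_ordZ L (IntermediateField.inclusion h (lq_unif K : K)) * lq_ordZ K x := by
  by_cases hx : x = 0
  · subst hx
    have h0 : lq_ordZ K (0 : K) = 0 := by simp [lq_ordZ]
    have h0' : lq_ordZ L (0 : L) = 0 := by simp [lq_ordZ]
    rw [map_zero, h0, h0', mul_zero]
  · have hx' : IntermediateField.inclusion h x ≠ 0 := (map_ne_zero _).mpr hx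
    have hπ' : IntermediateField.inclusion h (lq_unif K : K) ≠ 0 :=
      (map_ne_zero _).mpr (lq_unif_ne_zero K)
    apply lq_ordZ_eq_of_norm_eq L hx'
    rw [lq_norm_inclusion, lq_ordZ_spec K hx, zpow_mul, ← lq_ordZ_spec L hπ', lq_norm_inclusion]

theorem lq_ordZ_inclusion_unif_pos (h : K ≤ L) :
    0 < lq_ordZ L (IntermediateField.inclusion h (lq_unif K : K)) := by
  have hπ' : IntermediateField.inclusion h (lq_unif K : K) ≠ 0 :=
    (map_ne_zero _).mpr (lq_unif_ne_zero K)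
  have h1 : ‖IntermediateField.inclusion h (lq_unif K : K)‖ < 1 := by
    rw [lq_norm_inclusion]; exact lq_norm_unif_lt_one K
  by_contra hle
  push Not at hle
  have h0 : 0 ≤ -lq_ordZ L (IntermediateField.inclusion h (lq_unif K : K)) := by omega
  have h2 : ‖IntermediateField.inclusion h (lq_unif K : K)‖⁻¹ ≤ 1 := by
    rw [lq_ordZ_spec L hπ', ← zpow_neg]
    exact zpow_le_one₀ (lq_norm_unif_pos L) (lq_norm_unif_lt_one L).le h0
  have h3 : 1 < ‖IntermediateField.inclusion h (lq_unif K : K)‖⁻¹ :=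
    (one_lt_inv₀ (norm_pos_iff.mpr hπ')).mpr h1
  exact absurd h2 (not_le.mpr h3)

/-- Abstract form: if the `L`-valuations of the nonzero elements of `K` are exactly the multiples
of `e`, then `ord_L = e * ord_K` on `K`. -/
theorem lq_ordZ_inclusion_of_valGroup (h : K ≤ L) (e : ℕ) (he : 0 < e)
    (hdvd : ∀ x : K, x ≠ 0 → (e : ℤ) ∣ lq_ordZ L (IntermediateField.inclusion h x))
    (hex : ∃ x : K, x ≠ 0 ∧ lq_ordZ L (IntermediateField.inclusion h x) = (e : ℤ)) (x : K) :
    lq_ordZ L (IntermediateField.inclusion h x) = (e : ℤ) * lq_ordZ K x := by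
  rw [lq_ordZ_inclusion_eq_mul h x]
  congr 1
  set k' := lq_ordZ L (IntermediateField.inclusion h (lq_unif K : K)) with hk'
  have hk'pos : 0 < k' := lq_ordZ_inclusion_unif_pos h
  have h1 : (e : ℤ) ∣ k' := hdvd _ (lq_unif_ne_zero K)
  obtain ⟨x₀, _, hx₀⟩ := hex
  rw [lq_ordZ_inclusion_eq_mul h x₀] at hx₀
  have h2 : k' ∣ (e : ℤ) := ⟨_, hx₀.symm⟩
  exact Int.dvd_antisymm hk'pos.le (by positivity) h2 h1

section tower

variable {L L' : LqField q} [FiniteDimensional ℚ_[q] L] [FiniteDimensional ℚ_[q] L']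

omit [FiniteDimensional ℚ_[q] L] in
/-- An element of `L'` fixed by `Gal(L'/L)` lies in `L`. -/
theorem lq_exists_of_fixed_ker_res (h : L ≤ L') [Normal ℚ_[q] L] [Normal ℚ_[q] L'] (x' : L')
    (hfix : ∀ σ ∈ (lq_res h).ker, σ x' = x') :
    ∃ x₀ : L, IntermediateField.inclusion h x₀ = x' := by
  have h1 : (x' : PadicAlgCl q) ∈ lq_fixed ((⊥ : Subgroup (L ≃ₐ[ℚ_[q]] L)).comap (lq_res h)) := by
    rw [lq_mem_fixed_iff]
    intro σ hσ
    exact hfix σ (by rwa [MonoidHom.comap_bot] at hσ)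
  rw [lq_fixed_comap_res, lq_mem_fixed_iff'] at h1
  obtain ⟨x₀, hx₀, -⟩ := h1
  exact ⟨x₀, Subtype.ext hx₀⟩

omit [FiniteDimensional ℚ_[q] L] [FiniteDimensional ℚ_[q] L'] in
theorem lq_inclusion_fixed_ker_res (h : L ≤ L') [Normal ℚ_[q] L] (x : L) :
    ∀ σ ∈ (lq_res h).ker, σ (IntermediateField.inclusion h x) = IntermediateField.inclusion h x :=
  fun σ hσ => (lq_mem_ker_res_iff h σ).mp hσ x

/-- **(LQ5) `lq_ordZ_inclusion`**, from (LQ3) for `(L', Gal(L'/L))`. -/
theorem lq_ordZ_inclusion (h : L ≤ L') [Normal ℚ_[q] L] [Normal ℚ_[q] L']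
    (h3 : lq_ValGroup L' (lq_res h).ker) (x : L) :
    lq_ordZ L' (IntermediateField.inclusion h x) =
      ((Nat.card ↥(lq_inertia L' ⊓ (lq_res h).ker) : ℕ) : ℤ) * lq_ordZ L x := by
  apply lq_ordZ_inclusion_of_valGroup h _ Nat.card_pos
  · intro x hx
    exact h3.dvd _ ((map_ne_zero _).mpr hx) (lq_inclusion_fixed_ker_res h x)
  · obtain ⟨x', hx', hfix, hord⟩ := h3.ex
    obtain ⟨x₀, rfl⟩ := lq_exists_of_fixed_ker_res h x' hfix
    exact ⟨x₀, (map_ne_zero _).mp hx', hord⟩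

/-- Multiplicativity of the ramification index `|I|` in a tower of Galois extensions of `ℚ_q`,
from (LQ3). -/
theorem lq_card_inertia_tower (h : L ≤ L') [Normal ℚ_[q] L] [Normal ℚ_[q] L']
    (h3 : lq_ValGroup L' (lq_res h).ker) (hL : lq_ValGroup L ⊤) (hL' : lq_ValGroup L' ⊤) :
    Nat.card (lq_inertia L') =
      Nat.card ↥(lq_inertia L' ⊓ (lq_res h).ker) * Nat.card (lq_inertia L) := by
  have eL : Nat.card ↥(lq_inertia L ⊓ ⊤) = Nat.card (lq_inertia L) := by rw [inf_top_eq]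
  have eL' : Nat.card ↥(lq_inertia L' ⊓ ⊤) = Nat.card (lq_inertia L') := by rw [inf_top_eq]
  set e' := Nat.card ↥(lq_inertia L' ⊓ (lq_res h).ker) with he'
  -- `e' * |I_L| ∣ |I_L'|`
  have hd1 : ((e' * Nat.card (lq_inertia L) : ℕ) : ℤ) ∣ (Nat.card (lq_inertia L') : ℤ) := by
    obtain ⟨y', hy', hfix, hord⟩ := hL'.ex
    obtain ⟨y, rfl⟩ := lq_exists_of_fixed_ker_res h y' (fun σ _ => hfix σ (Subgroup.mem_top σ))
    have hy : y ≠ 0 := (map_ne_zero _).mp hy'
    have hyfix : ∀ τ ∈ (⊤ : Subgroup (L ≃ₐ[ℚ_[q]] L)), τ y = y := by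
      intro τ _
      obtain ⟨σ, rfl⟩ := lq_res_surjective h τ
      have hinj : Function.Injective (IntermediateField.inclusion h) :=
        (IntermediateField.inclusion h).injective
      apply hinj
      rw [lq_res_inclusion]
      exact hfix σ (Subgroup.mem_top σ)
    have h1 := hL.dvd y hy hyfix
    rw [eL] at h1
    rw [eL', lq_ordZ_inclusion h h3 y] at hord
    rw [← hord]
    push_cast
    exact mul_dvd_mul_left _ h1
  -- `|I_L'| ∣ e' * |I_L|`
  have hd2 : (Nat.card (lq_inertia L') : ℤ) ∣ ((e' * Nat.card (lq_inertia L) : ℕ) : ℤ) := by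
    obtain ⟨y, hy, hfix, hord⟩ := hL.ex
    have h1 := hL'.dvd (IntermediateField.inclusion h y) ((map_ne_zero _).mpr hy) (by
      intro σ _
      rw [← lq_res_inclusion, hfix _ (Subgroup.mem_top _)])
    rw [eL', lq_ordZ_inclusion h h3 y, hord, eL] at h1
    push_cast
    exact h1
  have := Int.dvd_antisymm (by positivity) (by positivity) hd2 hd1
  exact_mod_cast this

/-- **(LQ5) ONTO**: restriction maps the inertia group of `L'` onto the inertia group of `L`
(both Galois over `ℚ_q`), from (LQ3). -/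
theorem lq_map_inertia_eq (h : L ≤ L') [Normal ℚ_[q] L] [Normal ℚ_[q] L']
    (h3 : lq_ValGroup L' (lq_res h).ker) (hL : lq_ValGroup L ⊤) (hL' : lq_ValGroup L' ⊤) :
    (lq_inertia L').map (lq_res h) = lq_inertia L := by
  have hle : (lq_inertia L').map (lq_res h) ≤ lq_inertia L := by
    rintro _ ⟨σ, hσ, rfl⟩
    exact lq_res_mem_inertia h hσ
  apply Subgroup.eq_of_le_of_card_ge hle
  -- count via the restricted homomorphism
  let g : ↥(lq_inertia L') →* (L ≃ₐ[ℚ_[q]] L) := (lq_res h).comp (lq_inertia L').subtype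
  have hrange : g.range = (lq_inertia L').map (lq_res h) := by
    rw [MonoidHom.range_comp, Subgroup.range_subtype]
  have hker : Nat.card g.ker = Nat.card ↥(lq_inertia L' ⊓ (lq_res h).ker) := by
    refine Nat.card_congr
      { toFun := fun σ => ⟨σ.1.1, σ.1.2, MonoidHom.mem_ker.mp σ.2⟩
        invFun := fun σ => ⟨⟨σ.1, σ.2.1⟩, MonoidHom.mem_ker.mpr σ.2.2⟩
        left_inv := fun _ => rfl
        right_inv := fun _ => rfl }
  have h1 := Subgroup.card_mul_index g.ker
  rw [Subgroup.index_ker, hrange, hker, lq_card_inertia_tower h h3 hL hL'] at h1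
  have hpos : 0 < Nat.card ↥(lq_inertia L' ⊓ (lq_res h).ker) := Nat.card_pos
  exact (Nat.eq_of_mul_eq_mul_left hpos h1).ge

theorem lq_res_inertia_surjective (h : L ≤ L') [Normal ℚ_[q] L] [Normal ℚ_[q] L']
    (h3 : lq_ValGroup L' (lq_res h).ker) (hL : lq_ValGroup L ⊤) (hL' : lq_ValGroup L' ⊤)
    {τ : L ≃ₐ[ℚ_[q]] L} (hτ : τ ∈ lq_inertia L) :
    ∃ σ ∈ lq_inertia L', lq_res h σ = τ := by
  rw [← lq_map_inertia_eq h h3 hL hL'] at hτ
  exact hτ

end tower

end

end Fermat.Agent.S55
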