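import Fermat.Agent.S55.LocalQ.Frobenius
import Fermat.Agent.S55.LocalQ.TowerOrd

/-!
# S55 / local block, concrete side: `e(L / L^H) = |I ∩ H|`  (LQ3), unramified criterion (LQ4)
-/

set_option autoImplicit false

open scoped Valued NormedField NNReal

namespace Fermat.Agent.S55

variable {q : ℕ} [Fact q.Prime]

noncomputable section

variable {L : LqField q} [FiniteDimensional ℚ_[q] L] (H : Subgroup (L ≃ₐ[ℚ_[q]] L))

/-- `[L : ℚ_q] = |H| · [L^H : ℚ_q]`. -/
theorem lq_finrank_eq_card_mul :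
    Module.finrank ℚ_[q] L = Nat.card H * Module.finrank ℚ_[q] (lq_fixed H) := by
  have h1 := IntermediateField.finrank_fixedField_eq_card H
  have h2 := Module.finrank_mul_finrank ℚ_[q] (IntermediateField.fixedField H) L
  have h3 : Module.finrank ℚ_[q] (lq_fixed H) =
      Module.finrank ℚ_[q] (IntermediateField.fixedField H) :=
    (IntermediateField.liftAlgEquiv (IntermediateField.fixedField H)).toLinearEquiv.finrank_eq.symm
  rw [h3, ← h2, h1, mul_comm]

/-- `f(L) = f(L^H) · f(L / L^H)`. -/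
theorem lq_fAbs_eq_mul : lq_fAbs L = lq_fAbs (lq_fixed H) * lq_fRel H := by
  have h1 := lq_resCard_eq_pow_fRel H
  rw [lq_resCard_eq L, lq_resCard_eq (lq_fixed H), ← pow_mul] at h1
  exact Nat.pow_right_injective (Fact.out : q.Prime).two_le h1

/-- The relative ramification index `e(L / L^H) = ord_L(π_{L^H})`. -/
def lq_eRel : ℕ :=
  (lq_ordZ L (IntermediateField.inclusion (lq_fixed_le H) (lq_unif (lq_fixed H) : lq_fixed H))).toNat

theorem lq_eRel_cast : ((lq_eRel H : ℕ) : ℤ) =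
    lq_ordZ L (IntermediateField.inclusion (lq_fixed_le H) (lq_unif (lq_fixed H) : lq_fixed H)) :=
  Int.toNat_of_nonneg (lq_ordZ_inclusion_unif_pos (lq_fixed_le H)).le

theorem lq_eRel_pos : 0 < lq_eRel H := by
  have h := lq_ordZ_inclusion_unif_pos (lq_fixed_le H)
  rw [← lq_eRel_cast] at h
  exact_mod_cast h

theorem lq_ordZ_inclusion_fixed (x : lq_fixed H) :
    lq_ordZ L (IntermediateField.inclusion (lq_fixed_le H) x) =
      (lq_eRel H : ℤ) * lq_ordZ (lq_fixed H) x := by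
  rw [lq_ordZ_inclusion_eq_mul (lq_fixed_le H) x, lq_eRel_cast]

/-- `e(L) = e(L / L^H) · e(L^H)`. -/
theorem lq_eAbs_eq_mul : lq_eAbs L = lq_eRel H * lq_eAbs (lq_fixed H) := by
  have h1 := lq_ordZ_inclusion_fixed H ((q : ℕ) : lq_fixed H)
  rw [map_natCast, ← lq_eAbs_cast, ← lq_eAbs_cast] at h1
  exact_mod_cast h1

/-- `e(L / L^H) · f(L / L^H) = |H|`. -/
theorem lq_eRel_mul_fRel : lq_eRel H * lq_fRel H = Nat.card H := by
  have h1 := lq_e_mul_f L
  have h2 := lq_e_mul_f (lq_fixed H)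
  rw [lq_finrank_eq_card_mul H, ← h2, lq_eAbs_eq_mul H, lq_fAbs_eq_mul H] at h1
  have hpos : 0 < lq_eAbs (lq_fixed H) * lq_fAbs (lq_fixed H) := by
    rw [h2]; exact Module.finrank_pos
  have h3 : (lq_eRel H * lq_fRel H) * (lq_eAbs (lq_fixed H) * lq_fAbs (lq_fixed H)) =
      Nat.card H * (lq_eAbs (lq_fixed H) * lq_fAbs (lq_fixed H)) := by
    rw [← h1]; ring
  exact Nat.eq_of_mul_eq_mul_right hpos h3

theorem lq_card_inertia_inf_mul : Nat.card ↥(lq_inertia L ⊓ H) * lq_fRel H = Nat.card H := by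
  rw [← lq_relIndex_inertia, Subgroup.relIndex, ← Subgroup.card_mul_index
    ((lq_inertia L).subgroupOf H)]
  congr 1
  rw [← Subgroup.inf_subgroupOf_right]
  exact (Nat.card_congr (Subgroup.subgroupOfEquivOfLe inf_le_right).toEquiv).symm

theorem lq_fRel_pos : 0 < lq_fRel H := by
  apply Nat.pos_of_ne_zero
  intro h0
  have h1 := lq_card_inertia_inf_mul H
  rw [h0, mul_zero] at h1
  exact (Nat.card_pos (α := H)).ne h1

/-- **`e(L / L^H) = |I ∩ H|`.** -/
theorem lq_eRel_eq_card : lq_eRel H = Nat.card ↥(lq_inertia L ⊓ H) := by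
  have h1 := lq_eRel_mul_fRel H
  rw [← lq_card_inertia_inf_mul H] at h1
  exact Nat.eq_of_mul_eq_mul_right (lq_fRel_pos H) h1

/-! ### (LQ3) -/

omit [FiniteDimensional ℚ_[q] L] in
theorem lq_exists_fixed_preimage (x : L) (hfix : ∀ σ ∈ H, σ x = x) :
    ∃ y : lq_fixed H, IntermediateField.inclusion (lq_fixed_le H) y = x :=
  ⟨⟨(x : PadicAlgCl q), (lq_mem_fixed_iff H x).mpr hfix⟩, Subtype.ext rfl⟩

omit [FiniteDimensional ℚ_[q] L] in
theorem lq_inclusion_fixed_fixed (y : lq_fixed H) :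
    ∀ σ ∈ H, σ (IntermediateField.inclusion (lq_fixed_le H) y) =
      IntermediateField.inclusion (lq_fixed_le H) y :=
  (lq_mem_fixed_iff H _).mp y.2

/-- **(LQ3)**, divisibility: `v_L((L^H)ˣ) ⊆ |I ∩ H| ℤ`. -/
theorem lq_ordZ_fixed_dvd (x : L) (_hx : x ≠ 0) (hfix : ∀ σ ∈ H, σ x = x) :
    ((Nat.card ↥(lq_inertia L ⊓ H) : ℕ) : ℤ) ∣ lq_ordZ L x := by
  obtain ⟨y, rfl⟩ := lq_exists_fixed_preimage H x hfix
  rw [lq_ordZ_inclusion_fixed, lq_eRel_eq_card]
  exact Dvd.intro _ rfl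

/-- **(LQ3)**, existence: a fixed element of valuation `|I ∩ H|`. -/
theorem lq_exists_fixed_ordZ :
    ∃ x : L, x ≠ 0 ∧ (∀ σ ∈ H, σ x = x) ∧
      lq_ordZ L x = ((Nat.card ↥(lq_inertia L ⊓ H) : ℕ) : ℤ) := by
  refine ⟨IntermediateField.inclusion (lq_fixed_le H) (lq_unif (lq_fixed H) : lq_fixed H),
    (map_ne_zero _).mpr (lq_unif_ne_zero _), lq_inclusion_fixed_fixed H _, ?_⟩
  rw [← lq_eRel_eq_card, lq_eRel_cast]

/-- (LQ3) in helper19's packaged form. -/
theorem lq_valGroup : lq_ValGroup L H := ⟨lq_ordZ_fixed_dvd H, lq_exists_fixed_ordZ H⟩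

end

end Fermat.Agent.S55
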