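import Fermat.Agent.S55.LocalQ.Basic

/-!
# S55 / local block, concrete side: the normalised `ℤᵐ⁰`-valued valuation

`lq_val K : Valuation K ℤᵐ⁰` for a finite extension `K` of `ℚ_[q]` inside `PadicAlgCl q`, with the
four facts that make up the abstract local setting (`lf_IsLocal`): invariance under automorphisms,
existence of a uniformiser, completeness, finiteness of the residue field.
-/

set_option autoImplicit false

open scoped Valued NormedField NNReal
open WithZero

namespace Fermat.Agent.S55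

variable {q : ℕ} [Fact q.Prime]

noncomputable section

variable (K : LqField q) [FiniteDimensional ℚ_[q] K]

theorem lq_norm_le_norm_iff {x y : K} (hx : x ≠ 0) (hy : y ≠ 0) :
    ‖x‖ ≤ ‖y‖ ↔ lq_ordZ K y ≤ lq_ordZ K x := by
  rw [lq_ordZ_spec K hx, lq_ordZ_spec K hy]
  exact zpow_le_zpow_iff_right_of_lt_one₀ (lq_norm_unif_pos K) (lq_norm_unif_lt_one K)

theorem lq_norm_lt_norm_iff {x y : K} (hx : x ≠ 0) (hy : y ≠ 0) :
    ‖x‖ < ‖y‖ ↔ lq_ordZ K y < lq_ordZ K x := by
  rw [lq_ordZ_spec K hx, lq_ordZ_spec K hy]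
  exact zpow_lt_zpow_iff_right_of_lt_one₀ (lq_norm_unif_pos K) (lq_norm_unif_lt_one K)

open Classical in
/-- The underlying function of the normalised valuation. -/
def lq_valFun (x : K) : ℤᵐ⁰ := if x = 0 then 0 else exp (-(lq_ordZ K x))

theorem lq_valFun_zero : lq_valFun K 0 = 0 := by simp [lq_valFun]

theorem lq_valFun_of_ne {x : K} (hx : x ≠ 0) : lq_valFun K x = exp (-(lq_ordZ K x)) := by
  simp [lq_valFun, hx]

theorem lq_valFun_le_iff (x y : K) : lq_valFun K x ≤ lq_valFun K y ↔ ‖x‖ ≤ ‖y‖ := by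
  by_cases hx : x = 0
  · simp [hx, lq_valFun_zero]
  by_cases hy : y = 0
  · simp [hy, lq_valFun_zero, lq_valFun_of_ne K hx, hx]
  rw [lq_valFun_of_ne K hx, lq_valFun_of_ne K hy, exp_le_exp, neg_le_neg_iff,
    lq_norm_le_norm_iff K hx hy]

/-- The normalised valuation of `K` with values in `ℤᵐ⁰` (a uniformiser has value `exp (-1)`). -/
def lq_val : Valuation K ℤᵐ⁰ where
  toFun := lq_valFun K
  map_zero' := lq_valFun_zero K
  map_one' := by rw [lq_valFun_of_ne K one_ne_zero, lq_ordZ_one, neg_zero, exp_zero]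
  map_mul' x y := by
    by_cases hx : x = 0
    · simp [hx, lq_valFun_zero]
    by_cases hy : y = 0
    · simp [hy, lq_valFun_zero]
    rw [lq_valFun_of_ne K hx, lq_valFun_of_ne K hy, lq_valFun_of_ne K (mul_ne_zero hx hy),
      lq_ordZ_mul K hx hy, neg_add, exp_add]
  map_add_le_max' x y := by
    rcases le_total ‖x‖ ‖y‖ with h | h
    · refine le_max_of_le_right ?_
      rw [lq_valFun_le_iff]
      exact (IsUltrametricDist.norm_add_le_max x y).trans (max_le h le_rfl)
    · refine le_max_of_le_left ?_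
      rw [lq_valFun_le_iff]
      exact (IsUltrametricDist.norm_add_le_max x y).trans (max_le le_rfl h)

theorem lq_val_apply_of_ne {x : K} (hx : x ≠ 0) : lq_val K x = exp (-(lq_ordZ K x)) :=
  lq_valFun_of_ne K hx

theorem lq_val_le_iff (x y : K) : lq_val K x ≤ lq_val K y ↔ ‖x‖ ≤ ‖y‖ := lq_valFun_le_iff K x y

theorem lq_val_lt_iff (x y : K) : lq_val K x < lq_val K y ↔ ‖x‖ < ‖y‖ := by
  rw [← not_le, ← not_le, lq_val_le_iff]

theorem lq_val_le_one_iff (x : K) : lq_val K x ≤ 1 ↔ ‖x‖ ≤ 1 := by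
  have := lq_val_le_iff K x 1
  rwa [map_one, norm_one] at this

theorem lq_val_lt_one_iff (x : K) : lq_val K x < 1 ↔ ‖x‖ < 1 := by
  have := lq_val_lt_iff K x 1
  rwa [map_one, norm_one] at this

theorem lq_val_eq_one_iff (x : K) : lq_val K x = 1 ↔ ‖x‖ = 1 := by
  rw [le_antisymm_iff, le_antisymm_iff, lq_val_le_one_iff]
  have := lq_val_le_iff K 1 x
  rw [map_one, norm_one] at this
  rw [this]

theorem lq_val_unif : lq_val K (lq_unif K : K) = exp (-1 : ℤ) := by
  rw [lq_val_apply_of_ne K (lq_unif_ne_zero K), lq_ordZ_unif]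

theorem lq_val_le_exp_iff (x : K) (n : ℤ) :
    lq_val K x ≤ exp (-n) ↔ ‖x‖ ≤ ‖(lq_unif K : K)‖ ^ n := by
  have h : exp (-n) = lq_val K ((lq_unif K : K) ^ n) := by
    rw [map_zpow₀, lq_val_unif, ← exp_zsmul]
    simp
  rw [h, lq_val_le_iff, norm_zpow]

theorem lq_val_lt_exp_iff (x : K) (n : ℤ) :
    lq_val K x < exp (-n) ↔ ‖x‖ < ‖(lq_unif K : K)‖ ^ n := by
  have h : exp (-n) = lq_val K ((lq_unif K : K) ^ n) := by
    rw [map_zpow₀, lq_val_unif, ← exp_zsmul]
    simp
  rw [h, lq_val_lt_iff, norm_zpow]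

/-! ### The four facts of the abstract local setting -/

/-- (inv) the valuation is invariant under automorphisms over any intermediate base. -/
theorem lq_val_aut {F : Type*} [Field F] [Algebra ℚ_[q] F] [Algebra F K]
    [IsScalarTower ℚ_[q] F K] (σ : K ≃ₐ[F] K) (x : K) : lq_val K (σ x) = lq_val K x := by
  apply le_antisymm
  · rw [lq_val_le_iff, lq_norm_aut σ x]
  · rw [lq_val_le_iff, lq_norm_aut σ x]

/-- (unif) there is a uniformiser. -/
theorem lq_val_exists_unif : ∃ π : K, lq_val K π = exp (-1 : ℤ) := ⟨_, lq_val_unif K⟩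

theorem lq_norm_unif_pow_tendsto :
    Filter.Tendsto (fun i : ℕ => ‖(lq_unif K : K)‖ ^ i) Filter.atTop (nhds 0) :=
  tendsto_pow_atTop_nhds_zero_of_lt_one (lq_norm_unif_pos K).le (lq_norm_unif_lt_one K)

/-- (complete) sequences with `v (a (i+1) - a i) ≤ exp (-i)` converge, with the expected bound. -/
theorem lq_val_complete (a : ℕ → K)
    (ha : ∀ i : ℕ, lq_val K (a (i + 1) - a i) ≤ exp (-(i : ℤ))) :
    ∃ x : K, ∀ i : ℕ, lq_val K (x - a i) ≤ exp (-(i : ℤ)) := by
  set r : ℝ := ‖(lq_unif K : K)‖ with hr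
  have hr0 : 0 ≤ r := (lq_norm_unif_pos K).le
  have hr1 : r < 1 := lq_norm_unif_lt_one K
  have ha' : ∀ i : ℕ, ‖a (i + 1) - a i‖ ≤ r ^ i := by
    intro i
    have := (lq_val_le_exp_iff K _ (i : ℤ)).mp (ha i)
    rwa [zpow_natCast] at this
  -- tails: `‖a j - a i‖ ≤ r ^ i` for `i ≤ j`
  have htail : ∀ i k : ℕ, ‖a (i + k) - a i‖ ≤ r ^ i := by
    intro i k
    induction k with
    | zero => simpa using pow_nonneg hr0 i
    | succ k ih =>
      have h1 : a (i + (k + 1)) - a i = (a (i + k + 1) - a (i + k)) + (a (i + k) - a i) := by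
        rw [← add_assoc]; ring
      rw [h1]
      refine (IsUltrametricDist.norm_add_le_max _ _).trans (max_le ?_ ih)
      exact (ha' (i + k)).trans (pow_le_pow_of_le_one hr0 hr1.le (Nat.le_add_right i k))
  have hcau : CauchySeq a := by
    rw [Metric.cauchySeq_iff']
    intro ε hε
    obtain ⟨N, hN⟩ := ((lq_norm_unif_pow_tendsto K).eventually (gt_mem_nhds hε)).exists
    refine ⟨N, fun n hn => ?_⟩
    obtain ⟨k, rfl⟩ := Nat.exists_eq_add_of_le hn
    rw [dist_eq_norm]
    exact (htail N k).trans_lt hN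
  obtain ⟨x, hx⟩ := cauchySeq_tendsto_of_complete hcau
  refine ⟨x, fun i => ?_⟩
  rw [lq_val_le_exp_iff, zpow_natCast]
  have hlim : Filter.Tendsto (fun k : ℕ => ‖a (i + k) - a i‖) Filter.atTop (nhds ‖x - a i‖) := by
    have h1 : Filter.Tendsto (fun k : ℕ => a (i + k)) Filter.atTop (nhds x) := by
      have := hx.comp (Filter.tendsto_add_atTop_nat i)
      refine this.congr fun k => ?_
      simp [add_comm]
    exact (h1.sub_const (a i)).norm
  exact le_of_tendsto' hlim (htail i)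

theorem lq_mem_maximalIdeal_iff (y : 𝒪[K]) :
    y ∈ IsLocalRing.maximalIdeal 𝒪[K] ↔ ‖(y : K)‖ < 1 := by
  rw [IsLocalRing.mem_maximalIdeal, mem_nonunits_iff, Valued.integer.isUnit_iff_norm_eq_one]
  have h1 : ‖(y : K)‖ ≤ 1 := (lq_mem_integer_iff K _).mp y.2
  constructor
  · intro h
    exact lt_of_le_of_ne h1 h
  · intro h
    exact h.ne

/-- (finite_res) finitely many residue classes. -/
theorem lq_val_finite_res :
    ∃ S : Finset K, ∀ x : K, lq_val K x ≤ 1 → ∃ s ∈ S, lq_val K (x - s) < 1 := by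
  classical
  let _ : Fintype 𝓀[K] := Fintype.ofFinite _
  choose rep hrep using (IsLocalRing.residue_surjective (R := 𝒪[K]))
  refine ⟨Finset.univ.image fun c : 𝓀[K] => ((rep c : 𝒪[K]) : K), fun x hx => ?_⟩
  have hxm : x ∈ 𝒪[K] := (lq_mem_integer_iff K x).mpr ((lq_val_le_one_iff K x).mp hx)
  refine ⟨((rep (IsLocalRing.residue 𝒪[K] ⟨x, hxm⟩) : 𝒪[K]) : K),
    Finset.mem_image.mpr ⟨_, Finset.mem_univ _, rfl⟩, ?_⟩
  rw [lq_val_lt_one_iff]
  set y : 𝒪[K] := ⟨x, hxm⟩ - rep (IsLocalRing.residue 𝒪[K] ⟨x, hxm⟩) with hy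
  have hmem : y ∈ IsLocalRing.maximalIdeal 𝒪[K] := by
    rw [← IsLocalRing.residue_eq_zero_iff, hy, map_sub, hrep, sub_self]
  have : ‖(y : K)‖ < 1 := (lq_mem_maximalIdeal_iff K y).mp hmem
  simpa [hy] using this

end

end Fermat.Agent.S55
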